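import Fermat.Agent.X015.Points
import Mathlib.NumberTheory.SumTwoSquares

set_option autoImplicit false

/-! The algebra of `X₀(15)`: a Weierstrass curve over `ℚ` with rational `3`- and `5`-isogeny data is
not semistable at `5`. -/

namespace Fermat.Agent.X015

lemma odd_padic {M : ℤ} (hM : M ≠ 0) {d : ℤ} (hd : d = 1 ∨ d = 5) {A C : ℤ}
    (h : A ^ 2 + C ^ 2 = 3 * d * M ^ 2) : False := by
  have h1 : A.natAbs ^ 2 + C.natAbs ^ 2 = 3 * d.natAbs * M.natAbs ^ 2 := by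
    zify
    rw [sq_abs, sq_abs, sq_abs, h]
    rcases hd with rfl | rfl <;> norm_num
  have h2 := (Nat.eq_sq_add_sq_iff (n := 3 * d.natAbs * M.natAbs ^ 2)).1 ⟨_, _, h1.symm⟩ 
  have hM' : M.natAbs ≠ 0 := Int.natAbs_ne_zero.2 hM
  have h3 := h2 (q := 3) (by
    rw [Nat.mem_primeFactors]
    refine ⟨by norm_num, ⟨d.natAbs * M.natAbs ^ 2, by ring⟩, ?_⟩
    rcases hd with rfl | rfl <;> simpa using hM') (by norm_num)
  have : Fact (Nat.Prime 3) := ⟨by norm_num⟩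
  have h4 : padicValNat 3 (3 * d.natAbs * M.natAbs ^ 2) = 1 + 2 * padicValNat 3 M.natAbs := by
    rcases hd with rfl | rfl
    · rw [show 3 * (1 : ℤ).natAbs * M.natAbs ^ 2 = 3 * M.natAbs ^ 2 by norm_num,
        padicValNat.mul (by norm_num) (pow_ne_zero 2 hM'), padicValNat.pow, padicValNat.self (by norm_num)]
    · rw [show 3 * (5 : ℤ).natAbs * M.natAbs ^ 2 = 3 * (5 * M.natAbs ^ 2) by norm_num; ring,
        padicValNat.mul (by norm_num) (mul_ne_zero (by norm_num) (pow_ne_zero 2 hM')),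
        padicValNat.mul (by norm_num) (pow_ne_zero 2 hM'), padicValNat.pow, padicValNat.self (by norm_num),
        padicValNat.eq_zero_of_not_dvd (by norm_num : ¬ 3 ∣ 5)]
      ring
  rw [h4] at h3
  revert h3
  rw [imp_false, Nat.not_even_iff_odd]
  exact ⟨padicValNat 3 M.natAbs, by ring⟩

lemma odd_padic_rat {G : ℚ} (hG : G ≠ 0) {d : ℤ} (hd : d = 1 ∨ d = 5) {A C : ℚ}
    (h : A ^ 2 + C ^ 2 = 3 * d * G ^ 2) : False := by
  have hA := Rat.num_div_den A
  have hC := Rat.num_div_den C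
  have hG' := Rat.num_div_den G
  have hAd : (A.den : ℚ) ≠ 0 := by exact_mod_cast A.den_nz
  have hCd : (C.den : ℚ) ≠ 0 := by exact_mod_cast C.den_nz
  have hGd : (G.den : ℚ) ≠ 0 := by exact_mod_cast G.den_nz
  refine odd_padic (M := G.num * A.den * C.den) ?_ hd (A := A.num * C.den * G.den)
    (C := C.num * A.den * G.den) ?_
  · have : G.num ≠ 0 := Rat.num_ne_zero.2 hG
    have h1 : (A.den : ℤ) ≠ 0 := by exact_mod_cast A.den_nz
    have h2 : (C.den : ℤ) ≠ 0 := by exact_mod_cast C.den_nz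
    exact mul_ne_zero (mul_ne_zero this h1) h2
  · rw [← hA, ← hC, ← hG'] at h
    field_simp at h
    have : (((A.num * C.den * G.den) ^ 2 + (C.num * A.den * G.den) ^ 2 : ℤ) : ℚ) =
        ((3 * d * (G.num * A.den * C.den) ^ 2 : ℤ) : ℚ) := by
      push_cast
      linear_combination h
    exact_mod_cast this

/-- `N > 0` on `Y² = N (N - 9) (N - 25)` that is a sum of two squares is `□` or `5 □`. -/
theorem E3_class {N Y A C E : ℚ} (hN : 0 < N) (h : Y ^ 2 = N * (N - 9) * (N - 25))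
    (hAC : C ≠ 0) (hE : N * (A ^ 2 + C ^ 2) = E ^ 2) : ∃ n : ℚ, n ≠ 0 ∧ (N = n ^ 2 ∨ N = 5 * n ^ 2) := by
  obtain ⟨a, b, ha, hb, hco, hX⟩ : ∃ a b : ℤ, 0 < a ∧ 0 < b ∧ IsCoprime a b ∧ N = a / b := by
    refine ⟨N.num, N.den, Rat.num_pos.2 hN, by exact_mod_cast N.pos, ?_, by
      rw [Int.cast_natCast]; exact (Rat.num_div_den N).symm⟩
    rw [Int.isCoprime_iff_gcd_eq_one]
    exact N.reduced
  have hbq : (b : ℚ) ≠ 0 := by exact_mod_cast hb.ne'
  have hsq : IsSquare ((b * (a * (a - 9 * b) * (a - 25 * b)) : ℤ)) := by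
    rw [← Rat.isSquare_intCast_iff]
    refine ⟨Y * b ^ 2, ?_⟩
    have : Y * b ^ 2 * (Y * b ^ 2) = Y ^ 2 * b ^ 4 := by ring
    rw [this, h, hX]
    push_cast
    field_simp
  obtain ⟨c, hc⟩ := hsq
  have hcoab : IsCoprime b (a * (a - 9 * b) * (a - 25 * b)) := by
    apply IsCoprime.mul_right (IsCoprime.mul_right hco.symm _)
    · have : IsCoprime b (a + b * (-25)) := by
        rw [IsCoprime.add_mul_left_right_iff]; exact hco.symm
      convert this using 1; ring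
    · have : IsCoprime b (a + b * (-9)) := by
        rw [IsCoprime.add_mul_left_right_iff]; exact hco.symm
      convert this using 1; ring
  obtain ⟨z, hz⟩ := Int.sq_of_isCoprime (c := c) hcoab (by rw [hc]; ring)
  have hbz : b = z ^ 2 := by
    rcases hz with h1 | h1
    · exact h1
    · nlinarith [sq_nonneg z]
  have hz0 : z ≠ 0 := by
    rintro rfl
    rw [hbz] at hb; norm_num at hb
  obtain ⟨w, hw⟩ := exists_sq_of_squarefree (ε := 1) (d := 1) (m := z) (w := c)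
    (M := a * (a - 9 * b) * (a - 25 * b)) (Or.inl rfl) squarefree_one hz0 (by
      rw [← hbz] ; push_cast; rw [sq c, ← hc]; ring)
  have hcoaz : IsCoprime a z := by
    rw [hbz, sq] at hco
    exact hco.of_mul_right_left
  have hzq : (z : ℚ) ≠ 0 := by exact_mod_cast hz0
  obtain ⟨ε, d, m, hε, hd, had⟩ := exists_sign_squarefree a
  have hm : m ≠ 0 := by rintro rfl; rw [had] at ha; norm_num at ha
  have hmq : (m : ℚ) ≠ 0 := by exact_mod_cast hm
  have hdp : (0 : ℤ) < d := by exact_mod_cast hd.ne_zero.bot_lt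
  have hm2 : 0 < m ^ 2 := by positivity
  have hε1 : ε = 1 := by
    rcases hε with h1 | h1
    · exact h1
    · exfalso; rw [h1] at had; nlinarith [mul_pos hdp hm2]
  subst hε1
  have hdd : (d : ℤ) ∣ a := ⟨m ^ 2, by rw [had]; ring⟩
  obtain ⟨s, hs⟩ := exists_sq_of_squarefree (ε := 1) (d := d) (m := m) (w := w)
    (M := (a - 9 * b) * (a - 25 * b)) (Or.inl rfl) hd hm (by
      rw [← had]; push_cast at hw; linear_combination hw)
  have hd15 : d ∣ 15 := by
    have h6 : (d : ℤ) ∣ (a - 9 * b) * (a - 25 * b) := ⟨s ^ 2, by rw [hs]; ring⟩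
    have h7 : (d : ℤ) ∣ 15 ^ 2 * z ^ 4 := by
      have : 15 ^ 2 * z ^ 4 = (a - 9 * b) * (a - 25 * b) - a * (a - 34 * b) := by rw [hbz]; ring
      rw [this]
      exact dvd_sub h6 (hdd.mul_right _)
    have h8 : IsCoprime (d : ℤ) (z ^ 4) := by
      have : IsCoprime a (z ^ 4) := hcoaz.pow_right
      obtain ⟨c', hc'⟩ := hdd
      rw [hc'] at this
      exact this.of_mul_left_left
    have h9 : (d : ℤ) ∣ 15 ^ 2 := h8.dvd_of_dvd_mul_right h7
    have h10 : d ∣ 15 ^ 2 := by exact_mod_cast h9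
    exact (hd.dvd_pow_iff_dvd (by norm_num)).1 h10
  have hd15' := dvd_fifteen_nat (d := d) (by exact_mod_cast hd15)
  have hNd : N = d * ((m : ℚ) / z) ^ 2 := by
    rw [hX, hbz, had]; push_cast; field_simp
  have hmz : ((m : ℚ) / z) ≠ 0 := div_ne_zero hmq hzq
  have hACpos : 0 < A ^ 2 + C ^ 2 := by positivity
  have hE0 : E ≠ 0 := by
    rintro rfl
    have := mul_pos hN hACpos
    rw [hE] at this; norm_num at this
  rcases hd15' with rfl | rfl | rfl | rfl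
  · exact ⟨m / z, hmz, Or.inl (by rw [hNd]; push_cast; ring)⟩
  · exfalso
    refine odd_padic_rat (G := E / (3 * (m / z))) (by positivity) (Or.inl rfl) (A := A) (C := C) ?_
    rw [hNd] at hE
    rw [div_pow, ← hE]
    push_cast
    field_simp
  · exact ⟨m / z, hmz, Or.inr (by rw [hNd]; push_cast; ring)⟩
  · exfalso
    refine odd_padic_rat (G := E / (15 * (m / z))) (by positivity) (Or.inr rfl) (A := A) (C := C) ?_
    rw [hNd] at hE
    rw [div_pow, ← hE]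
    push_cast
    field_simp
    norm_num

/-- combine: `N ≥ 0` on the curve and sum of two squares times square. -/
theorem E3_values {N Y A C E : ℚ} (hN : 0 ≤ N) (h : Y ^ 2 = N * (N - 9) * (N - 25))
    (hAC : C ≠ 0) (hE : N * (A ^ 2 + C ^ 2) = E ^ 2) :
    N = 0 ∨ N = 9 ∨ N = 25 ∨ N = 5 ∨ N = 45 := by
  rcases hN.eq_or_lt with h0 | h0
  · left; exact h0.symm
  · obtain ⟨n, hn, h1 | h1⟩ := E3_class h0 h hAC hE
    · rw [h1] at h
      rcases E3_square hn h with h2 | h2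
      · right; left; rw [h1, h2]
      · right; right; left; rw [h1, h2]
    · rw [h1] at h
      rcases E3_five_square hn h with h2 | h2
      · right; right; right; left; rw [h1, h2]
      · right; right; right; right; rw [h1, h2]

/-- the values of `β`. -/
theorem beta_values {η β μ : ℚ} (hη : 0 ≤ η)
    (h1 : 3 * η ^ 2 + 3 * β * η + β / 4 + 5 / 16 = μ * (η + 3 / 4))
    (h2 : μ ^ 2 = ((2 * β + 1) ^ 2 + 4) * η) :
    β = -5 / 4 ∨ β = 55 / 16 ∨ β = -15 ∨ β = 0 ∨ β = 5 := by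
  have hη1 : 3 * (4 * η) + 1 ≠ 0 := by positivity
  set Y : ℚ := 9 * ((4 * η - 1) * (-4 * μ * (4 * η - 1) + 3 * (4 * η) * (4 * η + 3)) /
    (3 * (4 * η) + 1)) with hY
  have hY2 : Y ^ 2 = (36 * η) * (36 * η - 9) * (36 * η - 25) := by
    have e : Y ^ 2 * (3 * (4 * η) + 1) ^ 2 =
        (36 * η) * (36 * η - 9) * (36 * η - 25) * (3 * (4 * η) + 1) ^ 2 := by
      have e1 : Y * (3 * (4 * η) + 1) =
        9 * ((4 * η - 1) * (-4 * μ * (4 * η - 1) + 3 * (4 * η) * (4 * η + 3))) := by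
        rw [hY]; field_simp
      have e2 : Y ^ 2 * (3 * (4 * η) + 1) ^ 2 = (Y * (3 * (4 * η) + 1)) ^ 2 := by ring
      rw [e2, e1]
      linear_combination (-324 * (4 * η - 1)) * (4 * (12 * η + 1) ^ 2 * h2 + 8 * (4 * η) *
        ((2 * β + 1) * (12 * η + 1) + (2 * μ * (4 * η + 3) - (3 / 2) * (4 * η - 1) ^ 2)) * h1)
    exact mul_right_cancel₀ (pow_ne_zero 2 hη1) e
  have hval := E3_values (N := 36 * η) (A := 2 * β + 1) (C := 2) (E := 6 * μ) (by positivity) hY2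
    (by norm_num) (by linear_combination -36 * h2)
  rcases hval with h | h | h | h | h
  · have h0 : η = 0 := by linarith
    subst h0
    have : μ = 0 := by
      have : μ ^ 2 = 0 := by rw [h2]; ring
      exact pow_eq_zero_iff (n := 2) (by norm_num) |>.1 this
    subst this
    left; linarith
  · exfalso
    have h0 : η = 1 / 4 := by linarith
    subst h0
    have h3 : μ = β + 1 / 2 := by linarith
    subst h3
    nlinarith
  · right; left
    have h0 : η = 25 / 36 := by linarith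
    subst h0
    have h3 : μ = 21 / 13 * β + 95 / 78 := by linarith
    subst h3
    have : (β - 55 / 16) ^ 2 = 0 := by linarith
    have := pow_eq_zero_iff (n := 2) (by norm_num) |>.1 this
    linarith
  · have h0 : η = 5 / 36 := by linarith
    subst h0
    have h3 : μ = 3 / 4 * β + 5 / 12 := by linarith
    subst h3
    have : (β + 15) * (β - 5) = 0 := by linarith
    rcases mul_eq_zero.1 this with h | h
    · right; right; left; linarith
    · right; right; right; right; linarith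
  · have h0 : η = 5 / 4 := by linarith
    subst h0
    have h3 : μ = 2 * β + 5 / 2 := by linarith
    subst h3
    have : β * (β - 5) = 0 := by linarith
    rcases mul_eq_zero.1 this with h | h
    · right; right; right; left; linarith
    · right; right; right; right; linarith

/-- final contradiction from the values of `β`. -/
theorem no_semistable {C D : ℤ} (hD : D ≠ 0) (hss : (5 : ℤ) ∣ D → ¬ (5 : ℤ) ∣ C) {w β : ℚ}
    (hβ : β = -5 / 4 ∨ β = 55 / 16 ∨ β = -15 ∨ β = 0 ∨ β = 5)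
    (hC : (C : ℚ) = w * ((2 * β - 10) ^ 2 + 10 * (2 * β - 10) + 5)) (hDw : (D : ℚ) = (2 * β - 10) * w ^ 3) :
    False := by
  have h5 : Prime (5 : ℤ) := by norm_num
  rcases hβ with rfl | rfl | rfl | rfl | rfl
  · -- t = -25/2
    have e : 5 * 29 ^ 3 * D = -32 * C ^ 3 := by
      have : (5 * 29 ^ 3 * D : ℚ) = -32 * C ^ 3 := by rw [hC, hDw]; ring
      exact_mod_cast this
    have h1 : (5 : ℤ) ∣ C := by
      have : (5 : ℤ) ∣ 32 * C ^ 3 := ⟨-29 ^ 3 * D, by linarith⟩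
      exact h5.dvd_of_dvd_pow ((h5.dvd_or_dvd this).resolve_left (by norm_num))
    obtain ⟨k, rfl⟩ := h1
    have h2 : (5 : ℤ) ∣ D := by
      have : (5 : ℤ) ∣ 29 ^ 3 * D := ⟨-160 * k ^ 3, by linarith⟩
      exact (h5.dvd_or_dvd this).resolve_left (by norm_num)
    exact hss h2 ⟨k, rfl⟩
  · -- t = -25/8
    have e : 5 * 211 ^ 3 * D = 32768 * C ^ 3 := by
      have : (5 * 211 ^ 3 * D : ℚ) = 32768 * C ^ 3 := by rw [hC, hDw]; ring
      exact_mod_cast this
    have h1 : (5 : ℤ) ∣ C := by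
      have : (5 : ℤ) ∣ 32768 * C ^ 3 := ⟨211 ^ 3 * D, by linarith⟩
      exact h5.dvd_of_dvd_pow ((h5.dvd_or_dvd this).resolve_left (by norm_num))
    obtain ⟨k, rfl⟩ := h1
    have h2 : (5 : ℤ) ∣ D := by
      have : (5 : ℤ) ∣ 211 ^ 3 * D := ⟨5 * 32768 * k ^ 3, by linarith⟩
      exact (h5.dvd_or_dvd this).resolve_left (by norm_num)
    exact hss h2 ⟨k, rfl⟩
  · -- t = -40
    have e : 25 * 241 ^ 3 * D = -8 * C ^ 3 := by
      have : (25 * 241 ^ 3 * D : ℚ) = -8 * C ^ 3 := by rw [hC, hDw]; ring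
      exact_mod_cast this
    have h1 : (5 : ℤ) ∣ C := by
      have : (5 : ℤ) ∣ 8 * C ^ 3 := ⟨-5 * 241 ^ 3 * D, by linarith⟩
      exact h5.dvd_of_dvd_pow ((h5.dvd_or_dvd this).resolve_left (by norm_num))
    obtain ⟨k, rfl⟩ := h1
    have h2 : (5 : ℤ) ∣ D := by
      have : (5 : ℤ) ∣ 241 ^ 3 * D := ⟨-8 * k ^ 3, by linarith⟩
      exact (h5.dvd_or_dvd this).resolve_left (by norm_num)
    exact hss h2 ⟨k, rfl⟩
  · -- t = -10
    have e : 25 * D = -2 * C ^ 3 := by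
      have : (25 * D : ℚ) = -2 * C ^ 3 := by rw [hC, hDw]; ring
      exact_mod_cast this
    have h1 : (5 : ℤ) ∣ C := by
      have : (5 : ℤ) ∣ 2 * C ^ 3 := ⟨-5 * D, by linarith⟩
      exact h5.dvd_of_dvd_pow ((h5.dvd_or_dvd this).resolve_left (by norm_num))
    obtain ⟨k, rfl⟩ := h1
    have h2 : (5 : ℤ) ∣ D := ⟨-2 * k ^ 3, by linarith⟩
    exact hss h2 ⟨k, rfl⟩
  · apply hD
    have : (D : ℚ) = 0 := by rw [hDw]; ring
    exact_mod_cast this

/-- The main algebraic statement. -/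
theorem no_three_five {C D : ℤ} (hD : D ≠ 0) (hss : (5 : ℤ) ∣ D → ¬ (5 : ℤ) ∣ C)
    {b2 b4 b6 b8 x0 s p : ℚ} (hb : 4 * b8 = b2 * b6 - b4 ^ 2) (hC : (C : ℚ) = b2 ^ 2 - 24 * b4)
    (hΔ : (D : ℚ) = -b2 ^ 2 * b8 - 8 * b4 ^ 3 - 27 * b6 ^ 2 + 9 * b2 * b4 * b6)
    (h3 : 3 * x0 ^ 4 + b2 * x0 ^ 3 + 3 * b4 * x0 ^ 2 + 3 * b6 * x0 + b8 = 0)
    (hw : s ^ 2 - 4 * p ≠ 0)
    (h5a : s ^ 3 - 6 * p * s - b4 * s - b2 * p - b6 = 0)
    (h5b : s ^ 4 - 8 * s ^ 2 * p + 10 * p ^ 2 - b4 * s ^ 2 - 2 * b4 * p - b2 * p * s - 3 * b6 * s -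
      2 * b8 = 0) : False := by
  -- centred coordinates
  obtain ⟨r, hr⟩ : ∃ r, s = 2 * r := ⟨s / 2, by ring⟩
  obtain ⟨w, hw'⟩ : ∃ w, w = s ^ 2 - 4 * p := ⟨_, rfl⟩
  have hp : p = r ^ 2 - w / 4 := by rw [hw', hr]; ring
  rw [← hw'] at hw
  obtain ⟨B2, hB2⟩ : ∃ B2, B2 = b2 + 12 * r := ⟨_, rfl⟩
  obtain ⟨B4, hB4⟩ : ∃ B4, B4 = b4 + r * b2 + 6 * r ^ 2 := ⟨_, rfl⟩
  obtain ⟨B6, hB6⟩ : ∃ B6, B6 = b6 + 2 * r * b4 + r ^ 2 * b2 + 4 * r ^ 3 := ⟨_, rfl⟩
  obtain ⟨B8, hB8⟩ : ∃ B8, B8 = b8 + 3 * r * b6 + 3 * r ^ 2 * b4 + r ^ 3 * b2 + 3 * r ^ 4 := ⟨_, rfl⟩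
  have e6 : B6 = B2 * w / 4 := by
    rw [hB6, hB2]
    rw [hr, hp] at h5a
    linear_combination -h5a
  have e8 : B8 = 5 * w ^ 2 / 16 + B4 * w / 4 := by
    rw [hB8, hB4]
    rw [hr, hp] at h5b
    linear_combination (-1 / 2) * h5b
  have hb' : 4 * B8 = B2 * B6 - B4 ^ 2 := by
    rw [hB8, hB4, hB6, hB2]; linear_combination hb
  have hC' : (C : ℚ) = B2 ^ 2 - 24 * B4 := by
    rw [hC, hB2, hB4]; ring
  have hΔ' : (D : ℚ) = -B2 ^ 2 * B8 - 8 * B4 ^ 3 - 27 * B6 ^ 2 + 9 * B2 * B4 * B6 := by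
    rw [hΔ, hB8, hB4, hB6, hB2]; linear_combination (6 * b2 * r + 36 * r ^ 2) * hb
  obtain ⟨x, hx⟩ : ∃ x, x = x0 - r := ⟨_, rfl⟩
  have h3' : 3 * x ^ 4 + B2 * x ^ 3 + 3 * B4 * x ^ 2 + 3 * B6 * x + B8 = 0 := by
    rw [hB8, hB4, hB6, hB2, hx]; linear_combination h3
  clear hB8 hB4 hB6 hB2 h5a h5b h3 hC hΔ hb
  have hrel : B2 ^ 2 * w = (2 * B4 + w) ^ 2 + 4 * w ^ 2 := by
    rw [e6, e8] at hb'; linear_combination -4 * hb'
  have hDw : (D : ℚ) = 2 * w ^ 2 * (B4 - 5 * w) := by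
    rw [hΔ', e6, e8]; linear_combination (2 * B4 - 2 * w) * hrel
  have hwpos : 0 < w := by
    have h1 : 0 < B2 ^ 2 * w := by rw [hrel]; positivity
    by_contra h2
    push Not at h2
    nlinarith [sq_nonneg B2]
  obtain ⟨β, hβ⟩ : ∃ β, B4 = β * w := ⟨B4 / w, by field_simp⟩
  refine no_semistable hD hss (w := w) (β := β) ?_ ?_ ?_
  · refine beta_values (η := x ^ 2 / w) (μ := -B2 * x / w) (by positivity) ?_ ?_
    · rw [e6, e8, hβ] at h3'
      field_simp
      linear_combination 64 * h3'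
    · rw [hβ] at hrel
      have hrel2 : B2 ^ 2 = ((2 * β + 1) ^ 2 + 4) * w := by
        apply mul_right_cancel₀ hw; linear_combination hrel
      field_simp
      linear_combination x ^ 2 * hrel2
  · apply mul_right_cancel₀ hw
    rw [hC', hβ]
    rw [hβ] at hrel
    linear_combination hrel
  · rw [hDw, hβ]; ring

end Fermat.Agent.X015
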