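import Fermat.Agent.X015.Count
import Fermat.Agent.X015.Algebra
import Fermat.Prelude.Def_FLTPrelim_ModularRep
import Mathlib.FieldTheory.Galois.Infinite
import Mathlib.FieldTheory.IsAlgClosed.AlgebraicClosure

set_option autoImplicit false

/-! Galois descent: reducible `E[3]`, `E[5]` give rational isogeny data. -/

open WeierstrassCurve WeierstrassCurve.Affine WeierstrassCurve.Affine.Point Polynomial

namespace Fermat.Agent.X015

lemma exists_generator {p : ℕ} [Fact p.Prime] {V : Type*} [AddCommGroup V] [Module (ZMod p) V]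
    [Finite V] (hcard : Nat.card V ≤ p ^ 2) (N : Submodule (ZMod p) V) (hbot : N ≠ ⊥)
    (htop : N ≠ ⊤) : ∃ v ∈ N, v ≠ 0 ∧ ∀ w ∈ N, ∃ c : ℕ, c < p ∧ w = c • v := by
  have hp : p.Prime := Fact.out
  have hV : Module.finrank (ZMod p) V ≤ 2 := by
    have h := Module.natCard_eq_pow_finrank (K := ZMod p) (V := V)
    rw [Nat.card_zmod] at h
    rw [h] at hcard
    exact (Nat.pow_le_pow_iff_right hp.one_lt).1 hcard
  have h1 : Module.finrank (ZMod p) N < Module.finrank (ZMod p) V := Submodule.finrank_lt htop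
  have h2 : Module.finrank (ZMod p) N ≠ 0 := by
    intro h
    exact hbot (Submodule.finrank_eq_zero.1 h)
  have h3 : Module.finrank (ZMod p) N = 1 := by omega
  obtain ⟨v, hv, hv'⟩ := finrank_eq_one_iff'.1 h3
  refine ⟨v, v.2, fun h => hv (Subtype.ext h), fun w hw => ?_⟩
  obtain ⟨c, hc⟩ := hv' ⟨w, hw⟩
  refine ⟨c.val, ZMod.val_lt c, ?_⟩
  have : w = c • (v : V) := by
    have := congrArg Subtype.val hc
    exact this.symm
  rw [this, ← Nat.cast_smul_eq_nsmul (ZMod p), ZMod.natCast_zmod_val]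

instance isGalois_Qbar : IsGalois ℚ (AlgebraicClosure ℚ) :=
  haveI : IsAlgClosure ℚ (AlgebraicClosure ℚ) := ⟨inferInstance, AlgebraicClosure.isAlgebraic ℚ⟩
  IsAlgClosure.isGalois ℚ (AlgebraicClosure ℚ)

lemma exists_rat_of_fixed {x : AlgebraicClosure ℚ}
    (h : ∀ σ : AlgebraicClosure ℚ ≃ₐ[ℚ] AlgebraicClosure ℚ, σ x = x) :
    ∃ q : ℚ, algebraMap ℚ (AlgebraicClosure ℚ) q = x := by
  have : x ∈ (⊥ : IntermediateField ℚ (AlgebraicClosure ℚ)) :=
    (InfiniteGalois.mem_bot_iff_fixed x).2 h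
  exact IntermediateField.mem_bot.1 this

variable (E : WeierstrassCurve ℚ)

lemma baseChange_Δ_ne_zero (hΔ : E.Δ ≠ 0) : (E⁄(AlgebraicClosure ℚ)).Δ ≠ 0 := by
  intro h
  apply hΔ
  have h1 : (E⁄(AlgebraicClosure ℚ)).Δ = algebraMap ℚ (AlgebraicClosure ℚ) E.Δ := by
    exact WeierstrassCurve.map_Δ ..
  rw [h1] at h
  exact (map_eq_zero _).1 h

lemma mem_torsion {n : ℕ} {P : (E⁄(AlgebraicClosure ℚ)).Point} :
    P ∈ Submodule.torsionBy ℤ (E⁄(AlgebraicClosure ℚ)).Point n ↔ n • P = 0 := by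
  rw [Submodule.mem_torsionBy_iff, natCast_zsmul]

lemma finite_card_torsion {n : ℕ} {f : (AlgebraicClosure ℚ)[X]} (hf : f ≠ 0)
    (hT : ∀ (x y : AlgebraicClosure ℚ) (h : (E⁄(AlgebraicClosure ℚ)).Nonsingular x y),
      n • (Point.some x y h : (E⁄(AlgebraicClosure ℚ)).Point) = 0 → f.eval x = 0) :
    Finite (Submodule.torsionBy ℤ (E⁄(AlgebraicClosure ℚ)).Point n) ∧
      Nat.card (Submodule.torsionBy ℤ (E⁄(AlgebraicClosure ℚ)).Point n) ≤ 2 * f.natDegree + 1 := by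
  obtain ⟨h1, h2⟩ := finite_card_le (E⁄(AlgebraicClosure ℚ)) hf
    (Submodule.torsionBy ℤ (E⁄(AlgebraicClosure ℚ)).Point n : Set _) (fun x y h hP =>
      hT x y h ((mem_torsion E).1 hP))
  exact ⟨h1.to_subtype, by rw [← Nat.card_coe_set_eq] at h2; exact h2⟩

lemma finite_three : Finite (Submodule.torsionBy ℤ (E⁄(AlgebraicClosure ℚ)).Point (3 : ℕ)) ∧
    Nat.card (Submodule.torsionBy ℤ (E⁄(AlgebraicClosure ℚ)).Point (3 : ℕ)) ≤ 3 ^ 2 := by
  have h3 : (3 : AlgebraicClosure ℚ) ≠ 0 := by norm_num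
  obtain ⟨h1, h2⟩ := finite_card_torsion E (n := 3)
    ((E⁄(AlgebraicClosure ℚ)).Ψ₃_ne_zero h3) (fun x y h hP => by
      rw [eval_Psi3]; exact P3_eq_zero_of_three_smul _ h hP)
  refine ⟨h1, h2.trans ?_⟩
  rw [(E⁄(AlgebraicClosure ℚ)).natDegree_Ψ₃ h3]
  norm_num

lemma finite_five : Finite (Submodule.torsionBy ℤ (E⁄(AlgebraicClosure ℚ)).Point (5 : ℕ)) ∧
    Nat.card (Submodule.torsionBy ℤ (E⁄(AlgebraicClosure ℚ)).Point (5 : ℕ)) ≤ 5 ^ 2 := by
  have h5 : ((5 : ℕ) : AlgebraicClosure ℚ) ≠ 0 := by norm_num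
  obtain ⟨h1, h2⟩ := finite_card_torsion E (n := 5)
    ((E⁄(AlgebraicClosure ℚ)).preΨ'_ne_zero h5) (fun x y h hP => by
      rw [eval_Psi5]
      obtain ⟨_, _, _, _, _, _, _, h⟩ := five_torsion_data _ h hP
      exact h)
  refine ⟨h1, h2.trans ?_⟩
  rw [(E⁄(AlgebraicClosure ℚ)).natDegree_preΨ' h5]
  norm_num

lemma nontrivial_three (hΔ : E.Δ ≠ 0) :
    Nontrivial (Submodule.torsionBy ℤ (E⁄(AlgebraicClosure ℚ)).Point (3 : ℕ)) := by
  have h3 : (3 : AlgebraicClosure ℚ) ≠ 0 := by norm_num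
  obtain ⟨x, hx⟩ := IsAlgClosed.exists_root (E⁄(AlgebraicClosure ℚ)).Ψ₃ (by
    apply ne_of_gt
    exact natDegree_pos_iff_degree_pos.1 ((E⁄(AlgebraicClosure ℚ)).natDegree_Ψ₃_pos h3))
  rw [IsRoot.def, eval_Psi3] at hx
  have hΔ' := baseChange_Δ_ne_zero E hΔ
  obtain ⟨y, hy⟩ := exists_nonsingular_of_root _ hΔ' x
  have h := three_smul_eq_zero _ hΔ' hy hx
  refine ⟨⟨⟨_, (mem_torsion E).2 h⟩, 0, fun h0 => ?_⟩⟩
  exact Point.some_ne_zero hy (congrArg Subtype.val h0)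

lemma nontrivial_five (hΔ : E.Δ ≠ 0) :
    Nontrivial (Submodule.torsionBy ℤ (E⁄(AlgebraicClosure ℚ)).Point (5 : ℕ)) := by
  have h5 : ((5 : ℕ) : AlgebraicClosure ℚ) ≠ 0 := by norm_num
  obtain ⟨x, hx⟩ := IsAlgClosed.exists_root ((E⁄(AlgebraicClosure ℚ)).preΨ' 5) (by
    apply ne_of_gt
    exact natDegree_pos_iff_degree_pos.1 ((E⁄(AlgebraicClosure ℚ)).natDegree_preΨ'_pos (by norm_num) h5))
  rw [IsRoot.def, eval_Psi5] at hx
  have hΔ' := baseChange_Δ_ne_zero E hΔ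
  obtain ⟨y, hy⟩ := exists_nonsingular_of_root _ hΔ' x
  have h := five_smul_eq_zero _ hΔ' hy hx
  refine ⟨⟨⟨_, (mem_torsion E).2 h⟩, 0, fun h0 => ?_⟩⟩
  exact Point.some_ne_zero hy (congrArg Subtype.val h0)

lemma smul_some (σ : AlgebraicClosure ℚ ≃ₐ[ℚ] AlgebraicClosure ℚ) {x y : AlgebraicClosure ℚ}
    (h : (E⁄(AlgebraicClosure ℚ)).Nonsingular x y) :
    ∃ h', σ • (Point.some x y h : (E⁄(AlgebraicClosure ℚ)).Point) = Point.some (σ x) (σ y) h' :=
  ⟨_, rfl⟩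

lemma X_fixed_or {σ : AlgebraicClosure ℚ ≃ₐ[ℚ] AlgebraicClosure ℚ} {x y x' y' : AlgebraicClosure ℚ}
    {h : (E⁄(AlgebraicClosure ℚ)).Nonsingular x y} {h' : (E⁄(AlgebraicClosure ℚ)).Nonsingular x' y'}
    (e : σ • (Point.some x y h : (E⁄(AlgebraicClosure ℚ)).Point) = Point.some x' y' h' ∨
      σ • (Point.some x y h : (E⁄(AlgebraicClosure ℚ)).Point) = -Point.some x' y' h') : σ x = x' := by
  obtain ⟨h'', e'⟩ := smul_some E σ h
  rw [e'] at e
  exact Point.X_eq_iff.2 e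

/-- generator of a proper nonzero stable submodule. -/
lemma exists_stable_generator {p : ℕ} [Fact p.Prime]
    (hnt : Nontrivial (Submodule.torsionBy ℤ (E⁄(AlgebraicClosure ℚ)).Point p))
    (hfin : Finite (Submodule.torsionBy ℤ (E⁄(AlgebraicClosure ℚ)).Point p))
    (hcard : Nat.card (Submodule.torsionBy ℤ (E⁄(AlgebraicClosure ℚ)).Point p) ≤ p ^ 2)
    (h : ¬ GaloisRepIsIrreducible (K := AlgebraicClosure ℚ) ℚ E p) :
    ∃ (x y : AlgebraicClosure ℚ) (hxy : (E⁄(AlgebraicClosure ℚ)).Nonsingular x y),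
      p • (Point.some x y hxy : (E⁄(AlgebraicClosure ℚ)).Point) = 0 ∧
      ∀ σ : AlgebraicClosure ℚ ≃ₐ[ℚ] AlgebraicClosure ℚ, ∃ c : ℕ, c < p ∧
        σ • (Point.some x y hxy : (E⁄(AlgebraicClosure ℚ)).Point) = c • Point.some x y hxy := by
  have h' : ∃ N : Submodule (ZMod p) (Submodule.torsionBy ℤ (E⁄(AlgebraicClosure ℚ)).Point p),
      IsGaloisStable ℚ N ∧ N ≠ ⊥ ∧ N ≠ ⊤ := by
    by_contra hcon
    push Not at hcon
    apply h
    refine ⟨hnt, fun N hN => ?_⟩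
    by_cases hb : N = ⊥
    · exact Or.inl hb
    · exact Or.inr (hcon N hN hb)
  obtain ⟨N, hst, hb, ht⟩ := h'
  obtain ⟨⟨P, hP⟩, hvN, hv0, hv⟩ := exists_generator hcard N hb ht
  rcases P with _ | ⟨x, y, hxy⟩
  · exact absurd rfl hv0
  refine ⟨x, y, hxy, (mem_torsion E).1 hP, fun σ => ?_⟩
  obtain ⟨c, hc3, hc⟩ := hv _ (hst σ _ hvN)
  exact ⟨c, hc3, congrArg Subtype.val hc⟩

/-- A reducible `E[3]` gives a rational root of `ψ₃`. -/
theorem exists_rat_root_three (hΔ : E.Δ ≠ 0)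
    (h : ¬ GaloisRepIsIrreducible (K := AlgebraicClosure ℚ) ℚ E 3) : ∃ x₀ : ℚ, P3 E x₀ = 0 := by
  have : Fact (Nat.Prime 3) := ⟨by norm_num⟩
  obtain ⟨x, y, hxy, h3, hσ⟩ := exists_stable_generator E (nontrivial_three E hΔ) (finite_three E).1
    (finite_three E).2 h
  have hx : ∀ σ : AlgebraicClosure ℚ ≃ₐ[ℚ] AlgebraicClosure ℚ, σ x = x := by
    intro σ
    obtain ⟨c, hc, e⟩ := hσ σ
    apply X_fixed_or E (h := hxy) (h' := hxy)
    interval_cases c
    · exfalso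
      rw [zero_nsmul] at e
      obtain ⟨h'', e'⟩ := smul_some E σ hxy
      rw [e'] at e
      exact Point.some_ne_zero _ e
    · left; rw [one_nsmul] at e; exact e
    · right
      rw [e]
      rw [succ_nsmul] at h3
      exact eq_neg_of_add_eq_zero_left h3
  obtain ⟨q, hq⟩ := exists_rat_of_fixed hx
  refine ⟨q, ?_⟩
  have h0 := P3_eq_zero_of_three_smul _ hxy h3
  rw [← hq] at h0
  have : P3 (E⁄(AlgebraicClosure ℚ)) (algebraMap ℚ (AlgebraicClosure ℚ) q) =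
      algebraMap ℚ (AlgebraicClosure ℚ) (P3 E q) := by
    have e2 : (E⁄(AlgebraicClosure ℚ)).b₂ = algebraMap ℚ (AlgebraicClosure ℚ) E.b₂ := map_b₂ ..
    have e4 : (E⁄(AlgebraicClosure ℚ)).b₄ = algebraMap ℚ (AlgebraicClosure ℚ) E.b₄ := map_b₄ ..
    have e6 : (E⁄(AlgebraicClosure ℚ)).b₆ = algebraMap ℚ (AlgebraicClosure ℚ) E.b₆ := map_b₆ ..
    have e8 : (E⁄(AlgebraicClosure ℚ)).b₈ = algebraMap ℚ (AlgebraicClosure ℚ) E.b₈ := map_b₈ ..
    unfold P3
    rw [e2, e4, e6, e8]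
    simp
  rw [this] at h0
  exact (map_eq_zero _).1 h0

/-- A reducible `E[5]` gives rational symmetric functions of the pair `x(P), x(2P)`. -/
theorem exists_rat_pair_five (hΔ : E.Δ ≠ 0)
    (h : ¬ GaloisRepIsIrreducible (K := AlgebraicClosure ℚ) ℚ E 5) : ∃ s p : ℚ,
    s ^ 2 - 4 * p ≠ 0 ∧ s ^ 3 - 6 * p * s - E.b₄ * s - E.b₂ * p - E.b₆ = 0 ∧
    s ^ 4 - 8 * s ^ 2 * p + 10 * p ^ 2 - E.b₄ * s ^ 2 - 2 * E.b₄ * p - E.b₂ * p * s - 3 * E.b₆ * s -
      2 * E.b₈ = 0 := by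
  have : Fact (Nat.Prime 5) := ⟨by norm_num⟩
  obtain ⟨x, y, hxy, h5, hσ⟩ := exists_stable_generator E (nontrivial_five E hΔ) (finite_five E).1
    (finite_five E).2 h
  obtain ⟨x', y', hxy', e2, h1, h2, hne, -⟩ := five_torsion_data _ hxy h5
  have e4 : 4 • (Point.some x y hxy : (E⁄(AlgebraicClosure ℚ)).Point) = -Point.some x y hxy := by
    rw [succ_nsmul] at h5
    exact eq_neg_of_add_eq_zero_left h5
  have e3 : 3 • (Point.some x y hxy : (E⁄(AlgebraicClosure ℚ)).Point) = -Point.some x' y' hxy' := by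
    rw [← e2]
    apply eq_neg_of_add_eq_zero_left
    rw [← add_nsmul]; exact h5
  -- action of `σ`
  have hx : ∀ σ : AlgebraicClosure ℚ ≃ₐ[ℚ] AlgebraicClosure ℚ,
      (σ x = x ∧ σ x' = x') ∨ (σ x = x' ∧ σ x' = x) := by
    intro σ
    obtain ⟨c, hc, e⟩ := hσ σ
    have ep : σ • (Point.some x' y' hxy' : (E⁄(AlgebraicClosure ℚ)).Point) = c • Point.some x' y' hxy' := by
      have e' : σ • (2 • (Point.some x y hxy : (E⁄(AlgebraicClosure ℚ)).Point)) =
          2 • (σ • (Point.some x y hxy : (E⁄(AlgebraicClosure ℚ)).Point)) :=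
        map_nsmul (Point.map (W' := E) σ.toAlgHom) 2 _
      rw [← e2, e', e, smul_smul, smul_smul, mul_comm]
    interval_cases c
    · exfalso
      rw [zero_nsmul] at e
      obtain ⟨h'', e'⟩ := smul_some E σ hxy
      rw [e'] at e
      exact Point.some_ne_zero _ e
    · left
      rw [one_nsmul] at e ep
      exact ⟨X_fixed_or E (Or.inl e), X_fixed_or E (Or.inl ep)⟩
    · right
      refine ⟨X_fixed_or E (Or.inl (e.trans e2)), ?_⟩
      apply X_fixed_or E (h := hxy') (h' := hxy)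
      right
      rw [ep, ← e2, smul_smul]
      exact e4
    · right
      refine ⟨X_fixed_or E (Or.inr (e.trans e3)), ?_⟩
      apply X_fixed_or E (h := hxy') (h' := hxy)
      left
      have : 6 • (Point.some x y hxy : (E⁄(AlgebraicClosure ℚ)).Point) = Point.some x y hxy := by
        rw [succ_nsmul, h5, zero_add]
      rw [ep, ← e2, smul_smul]
      exact this
    · left
      refine ⟨X_fixed_or E (Or.inr (e.trans e4)), ?_⟩
      apply X_fixed_or E (h := hxy') (h' := hxy')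
      right
      have : 8 • (Point.some x y hxy : (E⁄(AlgebraicClosure ℚ)).Point) = -Point.some x' y' hxy' := by
        rw [← e3]
        have : 8 • (Point.some x y hxy : (E⁄(AlgebraicClosure ℚ)).Point) =
          5 • Point.some x y hxy + 3 • Point.some x y hxy := by rw [← add_nsmul]
        rw [this, h5, zero_add]
      rw [ep, ← e2, smul_smul, e2]
      exact this
  obtain ⟨s, hs⟩ := exists_rat_of_fixed (x := x + x') (by
    intro σ
    rw [map_add]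
    rcases hx σ with ⟨h1, h2⟩ | ⟨h1, h2⟩ <;> rw [h1, h2]
    ring)
  obtain ⟨p, hp⟩ := exists_rat_of_fixed (x := x * x') (by
    intro σ
    rw [map_mul]
    rcases hx σ with ⟨h1, h2⟩ | ⟨h1, h2⟩ <;> rw [h1, h2]
    ring)
  have e2 : (E⁄(AlgebraicClosure ℚ)).b₂ = algebraMap ℚ (AlgebraicClosure ℚ) E.b₂ := map_b₂ ..
  have e4 : (E⁄(AlgebraicClosure ℚ)).b₄ = algebraMap ℚ (AlgebraicClosure ℚ) E.b₄ := map_b₄ ..
  have e6 : (E⁄(AlgebraicClosure ℚ)).b₆ = algebraMap ℚ (AlgebraicClosure ℚ) E.b₆ := map_b₆ ..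
  have e8 : (E⁄(AlgebraicClosure ℚ)).b₈ = algebraMap ℚ (AlgebraicClosure ℚ) E.b₈ := map_b₈ ..
  unfold P2 F2 at h1 h2
  rw [e2, e4, e6, e8] at h1 h2
  refine ⟨s, p, ?_, ?_, ?_⟩
  · intro h0
    have := congrArg (algebraMap ℚ (AlgebraicClosure ℚ)) h0
    simp only [map_sub, map_mul, map_pow, hs, hp, _root_.map_zero, map_ofNat] at this
    have h3 : (x - x') ^ 2 = 0 := by linear_combination this
    exact hne (sub_eq_zero.1 (pow_eq_zero_iff (n := 2) (by norm_num) |>.1 h3))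
  · apply (algebraMap ℚ (AlgebraicClosure ℚ)).injective
    simp only [map_sub, map_mul, map_pow, hs, hp, _root_.map_zero, map_ofNat]
    apply mul_left_cancel₀ (sub_ne_zero.2 hne)
    linear_combination h2 - h1
  · apply (algebraMap ℚ (AlgebraicClosure ℚ)).injective
    simp only [map_sub, map_add, map_mul, map_pow, hs, hp, _root_.map_zero, map_ofNat]
    linear_combination -h1 - h2

end Fermat.Agent.X015
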