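import Fermat.Agent.X015.Torsion
import Mathlib.FieldTheory.Finiteness
import Mathlib.FieldTheory.IsAlgClosed.Basic
import Mathlib.Data.Set.Card

set_option autoImplicit false

/-! Counting `3`- and `5`-torsion points. -/

open WeierstrassCurve WeierstrassCurve.Affine Polynomial

namespace Fermat.Agent.X015

variable {K : Type*} [Field K] [DecidableEq K] (W : WeierstrassCurve K)

/-- A set of points whose affine x-coordinates are roots of `f` is finite of size at most
`2 deg f + 1`. -/
lemma finite_card_le {f : K[X]} (hf : f ≠ 0) (T : Set W.toAffine.Point)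
    (hT : ∀ (x y : K) (h : W.toAffine.Nonsingular x y), (Point.some x y h : W.toAffine.Point) ∈ T →
      f.eval x = 0) : T.Finite ∧ T.ncard ≤ 2 * f.natDegree + 1 := by
  classical
  let g : K → W.toAffine.Point := fun x =>
    if h : ∃ y, W.toAffine.Nonsingular x y then Point.some x h.choose h.choose_spec else 0
  let A : Finset W.toAffine.Point :=
    insert 0 (f.roots.toFinset.image g ∪ f.roots.toFinset.image (fun x => - g x))
  have hTA : T ⊆ (A : Set W.toAffine.Point) := by
    intro P hP
    rcases P with _ | ⟨x, y, h⟩
    · exact Finset.mem_coe.2 (Finset.mem_insert_self _ _)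
    · have hx := hT x y h hP
      have hxr : x ∈ f.roots.toFinset := by
        rw [Multiset.mem_toFinset, mem_roots hf]; exact hx
      have hex : ∃ y, W.toAffine.Nonsingular x y := ⟨y, h⟩
      have hg : g x = Point.some x hex.choose hex.choose_spec := dif_pos hex
      rcases (Point.X_eq_iff (h₁ := h) (h₂ := hex.choose_spec)).1 rfl with h1 | h1
      · rw [← hg] at h1
        rw [h1]
        apply Finset.mem_coe.2
        apply Finset.mem_insert_of_mem
        exact Finset.mem_union_left _ (Finset.mem_image_of_mem _ hxr)
      · rw [← hg] at h1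
        rw [h1]
        apply Finset.mem_coe.2
        apply Finset.mem_insert_of_mem
        exact Finset.mem_union_right _ (Finset.mem_image_of_mem (fun x => - g x) hxr)
  have hcard : A.card ≤ 2 * f.natDegree + 1 := by
    have h1 : f.roots.toFinset.card ≤ f.natDegree :=
      (Multiset.toFinset_card_le _).trans (card_roots' f)
    have h2 := Finset.card_insert_le (0 : W.toAffine.Point)
      (f.roots.toFinset.image g ∪ f.roots.toFinset.image (fun x => - g x))
    have h3 := Finset.card_union_le (f.roots.toFinset.image g) (f.roots.toFinset.image (fun x => - g x))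
    have h4 : (f.roots.toFinset.image g).card ≤ f.roots.toFinset.card := Finset.card_image_le
    have h5 : (f.roots.toFinset.image (fun x => - g x)).card ≤ f.roots.toFinset.card :=
      Finset.card_image_le
    show (insert 0 _ : Finset _).card ≤ _
    omega
  refine ⟨A.finite_toSet.subset hTA, ?_⟩
  calc T.ncard ≤ (A : Set W.toAffine.Point).ncard := Set.ncard_le_ncard hTA A.finite_toSet
    _ = A.card := Set.ncard_coe_finset A
    _ ≤ _ := hcard

lemma exists_nonsingular_of_root [IsAlgClosed K] (hΔ : W.Δ ≠ 0) (x : K) :
    ∃ y, W.toAffine.Nonsingular x y := by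
  obtain ⟨y, hy⟩ := IsAlgClosed.exists_root (X ^ 2 + C (W.a₁ * x + W.a₃) * X +
    C (-(x ^ 3 + W.a₂ * x ^ 2 + W.a₄ * x + W.a₆)) : K[X]) (by
      have : (X ^ 2 + C (W.a₁ * x + W.a₃) * X +
        C (-(x ^ 3 + W.a₂ * x ^ 2 + W.a₄ * x + W.a₆)) : K[X]).degree = 2 := by
        compute_degree!
      rw [this]; norm_num)
  have heq : W.toAffine.Equation x y := by
    rw [Affine.equation_iff]
    simp only [IsRoot.def, eval_add, eval_pow, eval_X, eval_mul, eval_C] at hy
    linear_combination hy
  exact ⟨y, (Affine.equation_iff_nonsingular_of_Δ_ne_zero hΔ).1 heq⟩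

end Fermat.Agent.X015
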