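import Mathlib.NumberTheory.PythagoreanTriples
import Mathlib.RingTheory.Int.Basic
import Mathlib.Data.ZMod.Basic
import Mathlib.Tactic

set_option autoImplicit false

/-! Classical infinite descent: `p² + q²` and `p² + 16 q²` are not both squares unless `p q = 0`. -/

namespace Fermat.Agent.X015

lemma three_dvd_of_sq_add_sq {a b c : ℤ} (h : a ^ 2 + b ^ 2 = 3 * c) :
    (3 : ℤ) ∣ a ∧ (3 : ℤ) ∣ b := by
  have h1 : ((a : ZMod 3)) ^ 2 + (b : ZMod 3) ^ 2 = 0 := by
    have := congrArg (Int.cast : ℤ → ZMod 3) h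
    push_cast at this
    rw [this]
    have h3 : (3 : ZMod 3) = 0 := by decide
    rw [h3]; ring
  have key : ∀ x y : ZMod 3, x ^ 2 + y ^ 2 = 0 → x = 0 ∧ y = 0 := by decide
  obtain ⟨h2, h3⟩ := key _ _ h1
  exact ⟨(ZMod.intCast_zmod_eq_zero_iff_dvd a 3).1 h2, (ZMod.intCast_zmod_eq_zero_iff_dvd b 3).1 h3⟩

lemma zmod8_sq_of_odd {a : ℤ} (ha : a % 2 = 1) : ((a : ZMod 8)) ^ 2 = 1 := by
  obtain ⟨k, hk⟩ : ∃ k, a = 2 * k + 1 := ⟨a / 2, by omega⟩
  subst hk
  push_cast
  have key : ∀ x : ZMod 8, (2 * x + 1) ^ 2 = 1 := by decide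
  exact key _

/-- divisibility: if `K A = 15 γ²`, `K B = 15 β²`, `β, γ` coprime then `K ∣ 15`. -/
lemma dvd_fifteen {K A B β γ : ℤ} (h1 : K * A = 15 * γ ^ 2) (h2 : K * B = 15 * β ^ 2)
    (hco : IsCoprime β γ) : K ∣ 15 := by
  obtain ⟨u, v, huv⟩ := hco.pow (m := 2) (n := 2)
  refine ⟨u * B + v * A, ?_⟩
  linear_combination (-u) * h2 - v * h1 - 15 * huv

lemma pos_dvd_fifteen {K : ℤ} (h : K ∣ 15) (hpos : 0 < K) : K = 1 ∨ K = 3 ∨ K = 5 ∨ K = 15 := by
  have hle : K ≤ 15 := Int.le_of_dvd (by norm_num) h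
  interval_cases K <;> simp_all

/-- factoring `k * l = m * n` with `gcd`s. -/
lemma exists_factor {k l m n : ℤ} (hk : k ≠ 0) (h : k * l = m * n) :
    ∃ α β γ δ : ℤ, k = α * β ∧ m = α * γ ∧ n = β * δ ∧ l = γ * δ ∧ IsCoprime β γ := by
  have hg : (Int.gcd k m : ℤ) ≠ 0 := by
    intro h0
    have := Int.gcd_eq_zero_iff.1 (by exact_mod_cast h0 : Int.gcd k m = 0)
    exact hk this.1
  obtain ⟨β, hβ⟩ : (Int.gcd k m : ℤ) ∣ k := Int.gcd_dvd_left ..
  obtain ⟨γ, hγ⟩ : (Int.gcd k m : ℤ) ∣ m := Int.gcd_dvd_right ..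
  set α : ℤ := (Int.gcd k m : ℤ) with hα
  have hco : IsCoprime β γ := by
    have hb := Int.gcd_eq_gcd_ab k m
    refine ⟨Int.gcdA k m, Int.gcdB k m, ?_⟩
    apply mul_left_cancel₀ hg
    rw [← hα] at hb
    linear_combination (-Int.gcdA k m) * hβ - Int.gcdB k m * hγ - hb
  have h2 : β * l = γ * n := by
    apply mul_left_cancel₀ hg
    linear_combination h - l * hβ + n * hγ
  obtain ⟨δ, hδ⟩ : β ∣ n := by
    apply hco.dvd_of_dvd_mul_left
    exact ⟨l, h2.symm⟩
  refine ⟨α, β, γ, δ, hβ, hγ, hδ, ?_, hco⟩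
  have hβ0 : β ≠ 0 := by
    rintro rfl; apply hk; rw [hβ]; ring
  apply mul_left_cancel₀ hβ0
  linear_combination h2 + γ * hδ

lemma natAbs_lt_of_eq_mul {a b c : ℤ} (hc : c = a * b) (ha : 2 ≤ a.natAbs) (hb : b ≠ 0) :
    b.natAbs < c.natAbs := by
  rw [hc, Int.natAbs_mul]
  have h10 : 0 < b.natAbs := Int.natAbs_pos.2 hb
  nlinarith

lemma two_le_natAbs_two_mul {a : ℤ} (ha : a ≠ 0) : 2 ≤ (2 * a).natAbs := by
  have : 0 < a.natAbs := Int.natAbs_pos.2 ha
  omega

lemma pos_of_mul_pos_left' {a b : ℤ} (h : 0 < a * b) (ha : 0 ≤ a) : 0 < b := by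
  by_contra hb
  push Not at hb
  nlinarith

theorem descent : ∀ (n : ℕ) (p q r s : ℤ), (p * q).natAbs = n →
    p ^ 2 + q ^ 2 = r ^ 2 → p ^ 2 + 16 * q ^ 2 = s ^ 2 → p * q = 0 := by
  intro n
  induction n using Nat.strong_induction_on with
  | _ n ih =>
  intro p q r s hn h1 h2
  by_contra hpq
  have hp0 : p ≠ 0 := fun h => hpq (by rw [h]; ring)
  have hq0 : q ≠ 0 := fun h => hpq (by rw [h]; ring)
  -- coprimality
  have hgcd : Int.gcd p q = 1 := by
    by_contra hg1
    obtain ⟨p', hp'⟩ : (Int.gcd p q : ℤ) ∣ p := Int.gcd_dvd_left ..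
    obtain ⟨q', hq'⟩ : (Int.gcd p q : ℤ) ∣ q := Int.gcd_dvd_right ..
    have hg0 : Int.gcd p q ≠ 0 := fun h0 => hp0 (Int.gcd_eq_zero_iff.1 h0).1
    set g : ℕ := Int.gcd p q with hg
    have hgz : (g : ℤ) ≠ 0 := by exact_mod_cast hg0
    have hr : (g : ℤ) ∣ r := by
      rw [← Int.pow_dvd_pow_iff (n := 2) (by norm_num)]
      exact ⟨p' ^ 2 + q' ^ 2, by rw [← h1, hp', hq']; ring⟩
    have hs : (g : ℤ) ∣ s := by
      rw [← Int.pow_dvd_pow_iff (n := 2) (by norm_num)]
      exact ⟨p' ^ 2 + 16 * q' ^ 2, by rw [← h2, hp', hq']; ring⟩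
    obtain ⟨r', hr'⟩ := hr
    obtain ⟨s', hs'⟩ := hs
    have hlt : (p' * q').natAbs < n := by
      rw [← hn]
      apply natAbs_lt_of_eq_mul (a := ((g * g : ℕ) : ℤ)) (by rw [hp', hq']; push_cast; ring)
      · rw [Int.natAbs_natCast]
        have : 2 ≤ g := by omega
        nlinarith
      · intro h0
        apply hpq
        rw [hp', hq']
        linear_combination (g : ℤ) ^ 2 * h0
    have := ih _ hlt p' q' r' s' rfl (by
      apply mul_left_cancel₀ (pow_ne_zero 2 hgz)
      rw [hp', hq', hr'] at h1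
      linear_combination h1) (by
      apply mul_left_cancel₀ (pow_ne_zero 2 hgz)
      rw [hp', hq', hs'] at h2
      linear_combination h2)
    apply hpq
    rw [hp', hq']
    linear_combination (g : ℤ) ^ 2 * this
  have hcop : IsCoprime p q := Int.isCoprime_iff_gcd_eq_one.2 hgcd
  rcases Int.emod_two_eq_zero_or_one q with hq | hq
  · -- `q` even, `p` odd
    have hp : p % 2 = 1 := by
      rcases Int.emod_two_eq_zero_or_one p with h | h
      · exfalso
        have : (2 : ℤ) ∣ Int.gcd p q := Int.dvd_coe_gcd (Int.dvd_of_emod_eq_zero h) (Int.dvd_of_emod_eq_zero hq)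
        rw [hgcd] at this
        norm_num at this
      · exact h
    have hr0 : r ≠ 0 := by
      rintro rfl
      have : p ^ 2 + q ^ 2 = 0 := by rw [h1]; ring
      have : p = 0 := by nlinarith [sq_nonneg p, sq_nonneg q]
      exact hp0 this
    have hs0 : s ≠ 0 := by
      rintro rfl
      have : p ^ 2 + 16 * q ^ 2 = 0 := by rw [h2]; ring
      have : p = 0 := by nlinarith [sq_nonneg p, sq_nonneg q]
      exact hp0 this
    obtain ⟨m, n', hpm, hqm, -, hmn, -, -⟩ := PythagoreanTriple.coprime_classification'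
      (x := p) (y := q) (z := |r|)
      (by unfold PythagoreanTriple; rw [abs_mul_abs_self]; linear_combination h1) hgcd hp
      (abs_pos.2 hr0)
    have hgcd4 : Int.gcd p (4 * q) = 1 := by
      rw [← Int.isCoprime_iff_gcd_eq_one]
      apply IsCoprime.mul_right _ hcop
      rw [Int.isCoprime_iff_gcd_eq_one]
      have h2' : IsCoprime p 2 := ⟨1, -(p / 2), by omega⟩
      rw [← Int.isCoprime_iff_gcd_eq_one]
      exact (h2'.mul_right h2' : IsCoprime p (2 * 2))
    obtain ⟨k, l, hpk, hqk, -, hkl, hpar, -⟩ := PythagoreanTriple.coprime_classification'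
      (x := p) (y := 4 * q) (z := |s|)
      (by unfold PythagoreanTriple; rw [abs_mul_abs_self]; linear_combination h2) hgcd4 hp
      (abs_pos.2 hs0)
    have hkl2 : k * l = 4 * (m * n') := by
      have : 2 * (k * l) = 2 * (4 * (m * n')) := by rw [← mul_assoc, ← hqk, hqm]; ring
      linarith
    have hk0 : k ≠ 0 := by
      rintro rfl
      apply hq0
      have : 4 * q = 0 := by rw [hqk]; ring
      linarith
    have hl0 : l ≠ 0 := by
      rintro rfl
      apply hq0
      have : 4 * q = 0 := by rw [hqk]; ring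
      linarith
    have hm0 : m ≠ 0 := by rintro rfl; apply hq0; rw [hqm]; ring
    have hn0 : n' ≠ 0 := by rintro rfl; apply hq0; rw [hqm]; ring
    have hcmn : IsCoprime m n' := Int.isCoprime_iff_gcd_eq_one.2 hmn
    have hckl : IsCoprime k l := Int.isCoprime_iff_gcd_eq_one.2 hkl
    rcases hpar with ⟨hk, hl⟩ | ⟨hk, hl⟩
    · -- `k` even, `l` odd
      obtain ⟨k', hk'⟩ : (4 : ℤ) ∣ k := by
        have h4l : IsCoprime (4 : ℤ) l := by
          have h2' : IsCoprime (2 : ℤ) l := ⟨-(l / 2), 1, by omega⟩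
          exact (h2'.mul_left h2' : IsCoprime (2 * 2) l)
        apply h4l.dvd_of_dvd_mul_right
        exact ⟨_, hkl2⟩
      have hk'0 : k' ≠ 0 := by rintro rfl; apply hk0; rw [hk']; ring
      have hkl3 : k' * l = m * n' := by
        have : 4 * (k' * l) = 4 * (m * n') := by rw [← hkl2, hk']; ring
        linarith
      obtain ⟨α, β, γ, δ, e1, e2, e3, e4, hbg⟩ := exists_factor hk'0 hkl3
      have hβ0 : β ≠ 0 := by rintro rfl; apply hk'0; rw [e1]; ring
      have hα0 : α ≠ 0 := by rintro rfl; apply hk'0; rw [e1]; ring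
      have hγ0 : γ ≠ 0 := by rintro rfl; apply hm0; rw [e2]; ring
      have hδ0 : δ ≠ 0 := by rintro rfl; apply hn0; rw [e3]; ring
      have key : γ ^ 2 * (α ^ 2 + δ ^ 2) = β ^ 2 * (16 * α ^ 2 + δ ^ 2) := by
        have : m ^ 2 - n' ^ 2 = k ^ 2 - l ^ 2 := by rw [← hpm, ← hpk]
        rw [hk', e1, e2, e3, e4] at this
        linear_combination this
      obtain ⟨K, hK⟩ : β ^ 2 ∣ α ^ 2 + δ ^ 2 := by
        have h5 : IsCoprime (β ^ 2) (γ ^ 2) := hbg.pow
        apply h5.dvd_of_dvd_mul_left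
        exact ⟨_, key⟩
      have hK2 : 16 * α ^ 2 + δ ^ 2 = K * γ ^ 2 := by
        apply mul_left_cancel₀ (pow_ne_zero 2 hβ0)
        linear_combination -key + γ ^ 2 * hK
      have hKpos : 0 < K := by
        have h6 : 0 < β ^ 2 * K := by rw [← hK]; positivity
        exact pos_of_mul_pos_left' h6 (by positivity)
      have hK15 : K ∣ 15 := dvd_fifteen (K := K) (A := γ ^ 2 - β ^ 2) (B := 16 * β ^ 2 - γ ^ 2)
        (γ := α) (β := δ) (by linear_combination hK - hK2) (by linear_combination hK2 - 16 * hK) (by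
          have : IsCoprime (α * β * 4) (γ * δ) := by
            rw [← e1, ← e4, mul_comm, ← hk']; exact hckl
          exact ((this.of_mul_left_left).of_mul_left_left.of_mul_right_right).symm)
      have hcad : ¬ ((3 : ℤ) ∣ α ∧ (3 : ℤ) ∣ δ) := by
        rintro ⟨⟨a, ha⟩, ⟨d, hd⟩⟩
        have : IsCoprime (α * β * 4) (γ * δ) := by
            rw [← e1, ← e4, mul_comm, ← hk']; exact hckl
        have h8 : IsCoprime α δ := (this.of_mul_left_left).of_mul_left_left.of_mul_right_right
        rw [ha, hd] at h8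
        have h9 : IsCoprime (3 : ℤ) 3 := h8.of_mul_left_left.of_mul_right_left
        rw [isCoprime_self] at h9
        exact absurd (Int.isUnit_iff.1 h9) (by norm_num)
      rcases pos_dvd_fifteen hK15 hKpos with rfl | rfl | rfl | rfl
      · -- new solution `(δ, α)`
        have hlt : (δ * α).natAbs < n := by
          have hqe : q = 2 * (δ * α) * (β * γ) := by rw [hqm, e2, e3]; ring
          rw [← hn]
          exact natAbs_lt_of_eq_mul (a := 2 * (p * (β * γ))) (by rw [hqe]; ring)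
            (two_le_natAbs_two_mul (mul_ne_zero hp0 (mul_ne_zero hβ0 hγ0))) (mul_ne_zero hδ0 hα0)
        have := ih _ hlt δ α β γ rfl (by linear_combination hK) (by linear_combination hK2)
        exact mul_ne_zero hδ0 hα0 this
      · exact hcad (three_dvd_of_sq_add_sq (c := β ^ 2) (by linear_combination hK))
      · -- mod 8
        have hlo : l % 2 = 1 := hl
        have hγo : γ % 2 = 1 := by
          rcases Int.emod_two_eq_zero_or_one γ with h | h
          · exfalso
            obtain ⟨c, hc⟩ := Int.dvd_of_emod_eq_zero h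
            rw [e4, hc, mul_assoc] at hlo
            omega
          · exact h
        have hδo : δ % 2 = 1 := by
          rcases Int.emod_two_eq_zero_or_one δ with h | h
          · exfalso
            obtain ⟨c, hc⟩ := Int.dvd_of_emod_eq_zero h
            rw [e4, hc, mul_left_comm] at hlo
            omega
          · exact h
        have h12 := congrArg (Int.cast : ℤ → ZMod 8) hK2
        push_cast at h12
        rw [zmod8_sq_of_odd hγo, zmod8_sq_of_odd hδo] at h12
        have key2 : ∀ x : ZMod 8, 16 * x ^ 2 + 1 ≠ 5 * 1 := by decide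
        exact key2 _ h12
      · exact hcad (three_dvd_of_sq_add_sq (c := 5 * β ^ 2) (by linear_combination hK))
    · -- `k` odd, `l` even
      obtain ⟨l', hl'⟩ : (4 : ℤ) ∣ l := by
        have h4k : IsCoprime (4 : ℤ) k := by
          have h2' : IsCoprime (2 : ℤ) k := ⟨-(k / 2), 1, by omega⟩
          exact (h2'.mul_left h2' : IsCoprime (2 * 2) k)
        apply h4k.dvd_of_dvd_mul_left
        exact ⟨_, hkl2⟩
      have hkl3 : k * l' = m * n' := by
        have : 4 * (k * l') = 4 * (m * n') := by rw [← hkl2, hl']; ring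
        linarith
      obtain ⟨α, β, γ, δ, e1, e2, e3, e4, hbg⟩ := exists_factor hk0 hkl3
      have hβ0 : β ≠ 0 := by rintro rfl; apply hk0; rw [e1]; ring
      have hα0 : α ≠ 0 := by rintro rfl; apply hk0; rw [e1]; ring
      have hγ0 : γ ≠ 0 := by rintro rfl; apply hm0; rw [e2]; ring
      have hδ0 : δ ≠ 0 := by rintro rfl; apply hn0; rw [e3]; ring
      have hcad' : IsCoprime α δ := by
        have : IsCoprime (α * β) (γ * δ * 4) := by
          rw [← e1, ← e4, mul_comm l', ← hl']; exact hckl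
        exact this.of_mul_left_left.of_mul_right_left.of_mul_right_right
      have key : α ^ 2 * (γ ^ 2 - β ^ 2) = δ ^ 2 * (β ^ 2 - 16 * γ ^ 2) := by
        have : m ^ 2 - n' ^ 2 = k ^ 2 - l ^ 2 := by rw [← hpm, ← hpk]
        rw [hl', e1, e2, e3, e4] at this
        linear_combination this
      obtain ⟨K', hK'⟩ : δ ^ 2 ∣ γ ^ 2 - β ^ 2 := by
        have h5 : IsCoprime (δ ^ 2) (α ^ 2) := hcad'.symm.pow
        apply h5.dvd_of_dvd_mul_left
        exact ⟨_, key⟩
      obtain ⟨K, rfl⟩ : ∃ K, K' = -K := ⟨-K', by ring⟩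
      have hK2 : 16 * γ ^ 2 - β ^ 2 = K * α ^ 2 := by
        apply mul_left_cancel₀ (pow_ne_zero 2 hδ0)
        linear_combination key - α ^ 2 * hK'
      have hK1 : β ^ 2 - γ ^ 2 = K * δ ^ 2 := by linear_combination -hK'
      have hsum : K * (α ^ 2 + δ ^ 2) = 15 * γ ^ 2 := by linear_combination -hK2 - hK1
      have hsum2 : K * (α ^ 2 + 16 * δ ^ 2) = 15 * β ^ 2 := by linear_combination -hK2 - 16 * hK1
      have hKpos : 0 < K := by
        have h6 : 0 < (α ^ 2 + δ ^ 2) * K := by rw [mul_comm, hsum]; positivity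
        exact pos_of_mul_pos_left' h6 (by positivity)
      have hK15 : K ∣ 15 := dvd_fifteen hsum hsum2 hbg
      have hcad : ¬ ((3 : ℤ) ∣ α ∧ (3 : ℤ) ∣ δ) := by
        rintro ⟨⟨a, ha⟩, ⟨d, hd⟩⟩
        have h8 := hcad'
        rw [ha, hd] at h8
        have h9 : IsCoprime (3 : ℤ) 3 := h8.of_mul_left_left.of_mul_right_left
        rw [isCoprime_self] at h9
        exact absurd (Int.isUnit_iff.1 h9) (by norm_num)
      rcases pos_dvd_fifteen hK15 hKpos with rfl | rfl | rfl | rfl
      · exact hcad (three_dvd_of_sq_add_sq (c := 5 * γ ^ 2) (by linear_combination hsum))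
      · -- K = 3
        have hko : k % 2 = 1 := hk
        have hαo : α % 2 = 1 := by
          rcases Int.emod_two_eq_zero_or_one α with h | h
          · exfalso
            obtain ⟨c, hc⟩ := Int.dvd_of_emod_eq_zero h
            rw [e1, hc, mul_assoc] at hko
            omega
          · exact h
        have hβo : β % 2 = 1 := by
          rcases Int.emod_two_eq_zero_or_one β with h | h
          · exfalso
            obtain ⟨c, hc⟩ := Int.dvd_of_emod_eq_zero h
            rw [e1, hc, mul_left_comm] at hko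
            omega
          · exact h
        have h12 := congrArg (Int.cast : ℤ → ZMod 8) hK2
        push_cast at h12
        rw [zmod8_sq_of_odd hαo, zmod8_sq_of_odd hβo] at h12
        have key2 : ∀ x : ZMod 8, 16 * x ^ 2 - 1 ≠ 3 * 1 := by decide
        exact key2 _ h12
      · exact hcad (three_dvd_of_sq_add_sq (c := γ ^ 2) (by linarith))
      · have hlt : (α * δ).natAbs < n := by
          have hqe : q = 2 * (α * δ) * (β * γ) := by rw [hqm, e2, e3]; ring
          rw [← hn]
          exact natAbs_lt_of_eq_mul (a := 2 * (p * (β * γ))) (by rw [hqe]; ring)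
            (two_le_natAbs_two_mul (mul_ne_zero hp0 (mul_ne_zero hβ0 hγ0))) (mul_ne_zero hα0 hδ0)
        have := ih _ hlt α δ γ β rfl (by linarith) (by linarith)
        exact mul_ne_zero hα0 hδ0 this
  · -- `q` odd
    have hq8 := zmod8_sq_of_odd hq
    have h1' := congrArg (Int.cast : ℤ → ZMod 8) h1
    push_cast at h1'
    rw [hq8] at h1'
    have hp4 : (4 : ℤ) ∣ p := by
      have key : ∀ x y : ZMod 8, x ^ 2 + 1 = y ^ 2 → x = 0 ∨ x = 4 := by decide
      rcases key _ _ h1' with h | h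
      · exact dvd_trans (by norm_num) ((ZMod.intCast_zmod_eq_zero_iff_dvd p 8).1 h)
      · have : ((p - 4 : ℤ) : ZMod 8) = 0 := by push_cast; rw [h]; decide
        have h3 := (ZMod.intCast_zmod_eq_zero_iff_dvd (p - 4) 8).1 this
        omega
    obtain ⟨p2, hp2⟩ := hp4
    have hs4 : (4 : ℤ) ∣ s := by
      rw [← Int.pow_dvd_pow_iff (n := 2) (by norm_num)]
      exact ⟨p2 ^ 2 + q ^ 2, by rw [← h2, hp2]; ring⟩
    obtain ⟨s2, hs2⟩ := hs4
    have hp20 : p2 ≠ 0 := by rintro rfl; apply hp0; rw [hp2]; ring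
    have hlt : (q * p2).natAbs < n := by
      rw [← hn]
      exact natAbs_lt_of_eq_mul (a := 4) (by rw [hp2]; ring) (by norm_num) (mul_ne_zero hq0 hp20)
    have := ih _ hlt q p2 s2 r rfl (by
      rw [hp2, hs2] at h2
      linarith) (by rw [← h1, hp2]; ring)
    exact mul_ne_zero hq0 hp20 this

/-- Integer form. -/
theorem mul_eq_zero_of_squares {p q r s : ℤ} (h1 : p ^ 2 + q ^ 2 = r ^ 2)
    (h2 : p ^ 2 + 16 * q ^ 2 = s ^ 2) : p * q = 0 :=
  descent _ p q r s rfl h1 h2

end Fermat.Agent.X015
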