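import Fermat.Agent.X015.Descent
import Mathlib.Data.Nat.Squarefree
import Mathlib.Data.Rat.Lemmas

set_option autoImplicit false

/-! Rational points on `y² = X (X + 1) (X + 16)` and on `Y² = N (N - 9) (N - 25)`. -/

namespace Fermat.Agent.X015

lemma class_neg_three {p z r s : ℤ} (h1 : p ^ 2 - z ^ 2 = 3 * r ^ 2)
    (h2 : 16 * z ^ 2 - p ^ 2 = 3 * s ^ 2) : p ^ 2 = 4 * z ^ 2 := by
  have h3 : (6 * (r * s - p * z)) ^ 2 + (4 * z ^ 2 - p ^ 2) ^ 2 = (3 * (p * s - 4 * z * r)) ^ 2 := by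
    have e1 : 9 * (r * s) ^ 2 = (p ^ 2 - z ^ 2) * (16 * z ^ 2 - p ^ 2) := by rw [h1, h2]; ring
    linear_combination 4 * e1 + 3 * p ^ 2 * h2 + 48 * z ^ 2 * h1
  have h4 : (6 * (r * s - p * z)) ^ 2 + 16 * (4 * z ^ 2 - p ^ 2) ^ 2 =
      (6 * (p * r - z * s)) ^ 2 := by
    have e1 : 9 * (r * s) ^ 2 = (p ^ 2 - z ^ 2) * (16 * z ^ 2 - p ^ 2) := by rw [h1, h2]; ring
    linear_combination 4 * e1 + 12 * z ^ 2 * h2 + 12 * p ^ 2 * h1
  rcases mul_eq_zero.1 (mul_eq_zero_of_squares h3 h4) with h | h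
  · have h5 : r * s = p * z := by linarith
    have e1 : 9 * (r * s) ^ 2 = (p ^ 2 - z ^ 2) * (16 * z ^ 2 - p ^ 2) := by rw [h1, h2]; ring
    have e2 : (p ^ 2 - 4 * z ^ 2) ^ 2 = 0 := by rw [h5] at e1; linear_combination e1
    have := pow_eq_zero_iff (n := 2) (by norm_num) |>.1 e2
    linarith
  · linarith

lemma class_five {p z r s : ℤ} (h1 : p ^ 2 + z ^ 2 = 5 * r ^ 2)
    (h2 : p ^ 2 + 16 * z ^ 2 = 5 * s ^ 2) : p ^ 2 = 4 * z ^ 2 := by
  have e1 : 25 * (r * s) ^ 2 = (p ^ 2 + z ^ 2) * (p ^ 2 + 16 * z ^ 2) := by rw [h1, h2]; ring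
  have h3 : (10 * (r * s - p * z)) ^ 2 + (p ^ 2 - 4 * z ^ 2) ^ 2 = (5 * (p * s - 4 * z * r)) ^ 2 := by
    linear_combination 4 * e1 + 5 * p ^ 2 * h2 + 80 * z ^ 2 * h1
  have h4 : (10 * (r * s - p * z)) ^ 2 + 16 * (p ^ 2 - 4 * z ^ 2) ^ 2 =
      (10 * (p * r - z * s)) ^ 2 := by
    linear_combination 4 * e1 + 20 * z ^ 2 * h2 + 20 * p ^ 2 * h1
  rcases mul_eq_zero.1 (mul_eq_zero_of_squares h3 h4) with h | h
  · have h5 : r * s = p * z := by linarith
    have e2 : (p ^ 2 - 4 * z ^ 2) ^ 2 = 0 := by rw [h5] at e1; linear_combination -e1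
    have := pow_eq_zero_iff (n := 2) (by norm_num) |>.1 e2
    linarith
  · linarith

/-- signed squarefree decomposition -/
lemma exists_sign_squarefree (a : ℤ) : ∃ (ε : ℤ) (d : ℕ) (m : ℤ), (ε = 1 ∨ ε = -1) ∧ Squarefree d ∧
    a = ε * d * m ^ 2 := by
  obtain ⟨d, m, hm, hd⟩ := Nat.sq_mul_squarefree a.natAbs
  rcases Int.natAbs_eq a with h | h
  · refine ⟨1, d, m, Or.inl rfl, hd, ?_⟩
    rw [h, ← hm]; push_cast; ring
  · refine ⟨-1, d, m, Or.inr rfl, hd, ?_⟩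
    rw [h, ← hm]; push_cast; ring

/-- if `ε d m² M = w²` with `d` squarefree, `m ≠ 0`, then `d ∣ M` and more precisely
`M = ε d s²`. -/
lemma exists_sq_of_squarefree {ε : ℤ} {d : ℕ} {m M w : ℤ} (hε : ε = 1 ∨ ε = -1) (hd : Squarefree d)
    (hm : m ≠ 0) (h : ε * d * m ^ 2 * M = w ^ 2) : ∃ s : ℤ, M = ε * d * s ^ 2 := by
  have hd0 : (d : ℤ) ≠ 0 := by exact_mod_cast hd.ne_zero
  obtain ⟨w', hw'⟩ : m ∣ w := by
    rw [← Int.pow_dvd_pow_iff (n := 2) (by norm_num)]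
    exact ⟨ε * d * M, by rw [← h]; ring⟩
  have h2 : ε * d * M = w' ^ 2 := by
    apply mul_left_cancel₀ (pow_ne_zero 2 hm)
    rw [hw'] at h
    linear_combination h
  have hdw : (d : ℤ) ∣ w' := by
    have h3 : (d : ℤ) ∣ w' ^ 2 := ⟨ε * M, by rw [← h2]; ring⟩
    have h4 : d ∣ w'.natAbs ^ 2 := by
      have := Int.natAbs_dvd_natAbs.2 h3
      rwa [Int.natAbs_natCast, Int.natAbs_pow] at this
    have h5 : d ∣ w'.natAbs := (hd.dvd_pow_iff_dvd (by norm_num)).1 h4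
    exact Int.natCast_dvd.2 h5
  obtain ⟨s, hs⟩ := hdw
  refine ⟨s, ?_⟩
  have hε2 : ε * ε = 1 := by rcases hε with rfl | rfl <;> norm_num
  apply mul_left_cancel₀ hd0
  rw [hs] at h2
  linear_combination ε * h2 - d * M * hε2

lemma zmod16_sq_of_odd {a : ℤ} (ha : a % 2 = 1) : ((a : ZMod 16)) ^ 2 = 1 ∨ ((a : ZMod 16)) ^ 2 = 9 := by
  obtain ⟨k, hk⟩ : ∃ k, a = 2 * k + 1 := ⟨a / 2, by omega⟩
  subst hk
  push_cast
  have key : ∀ x : ZMod 16, (2 * x + 1) ^ 2 = 1 ∨ (2 * x + 1) ^ 2 = 9 := by decide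
  exact key _

lemma zmod16_sq_of_even {a : ℤ} (ha : a % 2 = 0) : ((a : ZMod 16)) ^ 2 = 0 ∨ ((a : ZMod 16)) ^ 2 = 4 := by
  obtain ⟨k, hk⟩ : ∃ k, a = 2 * k := ⟨a / 2, by omega⟩
  subst hk
  push_cast
  have key : ∀ x : ZMod 16, (2 * x) ^ 2 = 0 ∨ (2 * x) ^ 2 = 4 := by decide
  exact key _

lemma zmod16_sq (a : ZMod 16) : a ^ 2 = 0 ∨ a ^ 2 = 1 ∨ a ^ 2 = 4 ∨ a ^ 2 = 9 := by
  revert a; decide

/-- local obstructions at `2`, class `2`. -/
lemma no_class_two {p z r s δ : ℤ} (hδ : δ = 1 ∨ δ = 3 ∨ δ = 5 ∨ δ = 15) (hz : z % 2 = 1)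
    (h1 : 2 * p ^ 2 + z ^ 2 = δ * r ^ 2) (h2 : p ^ 2 + 8 * z ^ 2 = δ * s ^ 2) : False := by
  have h1' := congrArg (Int.cast : ℤ → ZMod 16) h1
  have h2' := congrArg (Int.cast : ℤ → ZMod 16) h2
  push_cast at h1' h2'
  rcases Int.emod_two_eq_zero_or_one p with hp | hp
  · rcases hδ with rfl | rfl | rfl | rfl <;> push_cast at h1' h2' <;>
    rcases zmod16_sq_of_odd hz with h | h <;> rcases zmod16_sq_of_even hp with h3 | h3 <;>
    rcases zmod16_sq (r : ZMod 16) with h4 | h4 | h4 | h4 <;>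
    rcases zmod16_sq (s : ZMod 16) with h5 | h5 | h5 | h5 <;>
    rw [h, h3, h4] at h1' <;> rw [h, h3, h5] at h2' <;> revert h1' h2' <;> decide
  · rcases hδ with rfl | rfl | rfl | rfl <;> push_cast at h1' h2' <;>
    rcases zmod16_sq_of_odd hz with h | h <;> rcases zmod16_sq_of_odd hp with h3 | h3 <;>
    rcases zmod16_sq (r : ZMod 16) with h4 | h4 | h4 | h4 <;>
    rcases zmod16_sq (s : ZMod 16) with h5 | h5 | h5 | h5 <;>
    rw [h, h3, h4] at h1' <;> rw [h, h3, h5] at h2' <;> revert h1' h2' <;> decide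

lemma no_class_neg_two {p z r s δ : ℤ} (hδ : δ = 1 ∨ δ = 3 ∨ δ = 5 ∨ δ = 15) (hz : z % 2 = 1)
    (h1 : 2 * p ^ 2 - z ^ 2 = δ * r ^ 2) (h2 : 8 * z ^ 2 - p ^ 2 = δ * s ^ 2) : False := by
  have h1' := congrArg (Int.cast : ℤ → ZMod 16) h1
  have h2' := congrArg (Int.cast : ℤ → ZMod 16) h2
  push_cast at h1' h2'
  rcases Int.emod_two_eq_zero_or_one p with hp | hp
  · rcases hδ with rfl | rfl | rfl | rfl <;> push_cast at h1' h2' <;>
    rcases zmod16_sq_of_odd hz with h | h <;> rcases zmod16_sq_of_even hp with h3 | h3 <;>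
    rcases zmod16_sq (r : ZMod 16) with h4 | h4 | h4 | h4 <;>
    rcases zmod16_sq (s : ZMod 16) with h5 | h5 | h5 | h5 <;>
    rw [h, h3, h4] at h1' <;> rw [h, h3, h5] at h2' <;> revert h1' h2' <;> decide
  · rcases hδ with rfl | rfl | rfl | rfl <;> push_cast at h1' h2' <;>
    rcases zmod16_sq_of_odd hz with h | h <;> rcases zmod16_sq_of_odd hp with h3 | h3 <;>
    rcases zmod16_sq (r : ZMod 16) with h4 | h4 | h4 | h4 <;>
    rcases zmod16_sq (s : ZMod 16) with h5 | h5 | h5 | h5 <;>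
    rw [h, h3, h4] at h1' <;> rw [h, h3, h5] at h2' <;> revert h1' h2' <;> decide

lemma no_class_neg_one {p z r s δ : ℤ} (hδ : δ = 1 ∨ δ = 5) (hpz : ¬ (p % 2 = 0 ∧ z % 2 = 0))
    (h1 : p ^ 2 - z ^ 2 = δ * r ^ 2) (h2 : 16 * z ^ 2 - p ^ 2 = δ * s ^ 2) : False := by
  have h1' := congrArg (Int.cast : ℤ → ZMod 16) h1
  have h2' := congrArg (Int.cast : ℤ → ZMod 16) h2
  push_cast at h1' h2'
  rcases Int.emod_two_eq_zero_or_one p with hp | hp
  · have hz : z % 2 = 1 := by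
      rcases Int.emod_two_eq_zero_or_one z with hz | hz
      · exact absurd ⟨hp, hz⟩ hpz
      · exact hz
    rcases hδ with rfl | rfl <;> push_cast at h1' h2' <;>
    rcases zmod16_sq_of_odd hz with h | h <;> rcases zmod16_sq_of_even hp with h3 | h3 <;>
    rcases zmod16_sq (r : ZMod 16) with h4 | h4 | h4 | h4 <;>
    rcases zmod16_sq (s : ZMod 16) with h5 | h5 | h5 | h5 <;>
    rw [h, h3, h4] at h1' <;> rw [h, h3, h5] at h2' <;> revert h1' h2' <;> decide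
  · rcases hδ with rfl | rfl <;> push_cast at h1' h2' <;>
    rcases zmod16_sq (z : ZMod 16) with h | h | h | h <;> rcases zmod16_sq_of_odd hp with h3 | h3 <;>
    rcases zmod16_sq (r : ZMod 16) with h4 | h4 | h4 | h4 <;>
    rcases zmod16_sq (s : ZMod 16) with h5 | h5 | h5 | h5 <;>
    rw [h, h3, h4] at h1' <;> rw [h, h3, h5] at h2' <;> revert h1' h2' <;> decide

lemma squarefree_dvd_sixteen {d : ℕ} (hd : Squarefree d) (h : (d : ℤ) ∣ 16) : d = 1 ∨ d = 2 := by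
  have h1 : d ∣ 2 := by
    have : d ∣ 2 ^ 4 := by exact_mod_cast h
    exact (hd.dvd_pow_iff_dvd (by norm_num)).1 this
  exact (Nat.dvd_prime Nat.prime_two).1 h1

lemma dvd_fifteen_nat {d : ℕ} (h : (d : ℤ) ∣ 15) : d = 1 ∨ d = 3 ∨ d = 5 ∨ d = 15 := by
  have h1 : d ∣ 15 := by exact_mod_cast h
  have h2 : d ∈ Nat.divisors 15 := Nat.mem_divisors.2 ⟨h1, by norm_num⟩
  have h3 : Nat.divisors 15 = {1, 3, 5, 15} := by decide
  rw [h3] at h2
  simpa using h2

theorem E1_int {a z w : ℤ} (hz : z ≠ 0) (hco : IsCoprime a z)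
    (h : a * (a + z ^ 2) * (a + 16 * z ^ 2) = w ^ 2) :
    a = 0 ∨ a + z ^ 2 = 0 ∨ a + 16 * z ^ 2 = 0 ∨ a = 4 * z ^ 2 ∨ a = -4 * z ^ 2 := by
  by_contra hcon
  push Not at hcon
  obtain ⟨ha0, hB0, hC0, h4, h5⟩ := hcon
  have hz2 : 0 < z ^ 2 := by positivity
  obtain ⟨ε₁, d₁, m₁, hε₁, hd₁, ha⟩ := exists_sign_squarefree a
  obtain ⟨ε₂, d₂, m₂, hε₂, hd₂, hB⟩ := exists_sign_squarefree (a + z ^ 2)
  have hm₁ : m₁ ≠ 0 := by rintro rfl; apply ha0; rw [ha]; ring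
  have hm₂ : m₂ ≠ 0 := by rintro rfl; apply hB0; rw [hB]; ring
  have hcoz : IsCoprime a (z ^ 4) := hco.pow_right
  have hcoB : IsCoprime (a + z ^ 2) z := by
    have : IsCoprime (a + z * z) z := by
      rw [IsCoprime.add_mul_left_left_iff]; exact hco
    rwa [← sq] at this
  have hcoBz : IsCoprime (a + z ^ 2) (z ^ 4) := hcoB.pow_right
  have hd₁a : (d₁ : ℤ) ∣ a := ⟨ε₁ * m₁ ^ 2, by rw [ha]; ring⟩
  have hd₂B : (d₂ : ℤ) ∣ a + z ^ 2 := ⟨ε₂ * m₂ ^ 2, by rw [hB]; ring⟩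
  have hd₁' : d₁ = 1 ∨ d₁ = 2 := by
    obtain ⟨s, hs⟩ := exists_sq_of_squarefree (M := (a + z ^ 2) * (a + 16 * z ^ 2)) (w := w)
      hε₁ hd₁ hm₁ (by rw [← ha]; linear_combination h)
    have h6 : (d₁ : ℤ) ∣ (a + z ^ 2) * (a + 16 * z ^ 2) := ⟨ε₁ * s ^ 2, by rw [hs]; ring⟩
    have h7 : (d₁ : ℤ) ∣ 16 * z ^ 4 := by
      have : 16 * z ^ 4 = (a + z ^ 2) * (a + 16 * z ^ 2) - a * (a + 17 * z ^ 2) := by ring
      rw [this]
      exact dvd_sub h6 (hd₁a.mul_right _)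
    have h8 : IsCoprime (d₁ : ℤ) (z ^ 4) := by
      obtain ⟨c, hc⟩ := hd₁a
      rw [hc] at hcoz
      exact hcoz.of_mul_left_left
    exact squarefree_dvd_sixteen hd₁ (h8.dvd_of_dvd_mul_right h7)
  have hd₂' : d₂ = 1 ∨ d₂ = 3 ∨ d₂ = 5 ∨ d₂ = 15 := by
    obtain ⟨s, hs⟩ := exists_sq_of_squarefree (M := a * (a + 16 * z ^ 2)) (w := w)
      hε₂ hd₂ hm₂ (by rw [← hB]; linear_combination h)
    have h6 : (d₂ : ℤ) ∣ a * (a + 16 * z ^ 2) := ⟨ε₂ * s ^ 2, by rw [hs]; ring⟩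
    have h7 : (d₂ : ℤ) ∣ 15 * z ^ 4 := by
      have : 15 * z ^ 4 = (a + z ^ 2) * (a + 15 * z ^ 2) - a * (a + 16 * z ^ 2) := by ring
      rw [this]
      exact dvd_sub (hd₂B.mul_right _) h6
    have h8 : IsCoprime (d₂ : ℤ) (z ^ 4) := by
      obtain ⟨c, hc⟩ := hd₂B
      rw [hc] at hcoBz
      exact hcoBz.of_mul_left_left
    exact dvd_fifteen_nat (h8.dvd_of_dvd_mul_right h7)
  have hcodd : Nat.Coprime d₁ d₂ := by
    rcases hd₁' with rfl | rfl <;> rcases hd₂' with rfl | rfl | rfl | rfl <;> decide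
  have hC : ∃ s : ℤ, a + 16 * z ^ 2 = (ε₁ * ε₂) * ((d₁ * d₂ : ℕ) : ℤ) * s ^ 2 := by
    apply exists_sq_of_squarefree (m := m₁ * m₂) (w := w)
    · rcases hε₁ with rfl | rfl <;> rcases hε₂ with rfl | rfl <;> norm_num
    · exact (Nat.squarefree_mul hcodd).2 ⟨hd₁, hd₂⟩
    · exact mul_ne_zero hm₁ hm₂
    · calc (ε₁ * ε₂) * ((d₁ * d₂ : ℕ) : ℤ) * (m₁ * m₂) ^ 2 * (a + 16 * z ^ 2)
          = (ε₁ * d₁ * m₁ ^ 2) * (ε₂ * d₂ * m₂ ^ 2) * (a + 16 * z ^ 2) := by push_cast; ring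
        _ = a * (a + z ^ 2) * (a + 16 * z ^ 2) := by rw [← ha, ← hB]
        _ = w ^ 2 := h
  obtain ⟨s, hs⟩ := hC
  have hABC : 0 < a * (a + z ^ 2) * (a + 16 * z ^ 2) := by
    have : a * (a + z ^ 2) * (a + 16 * z ^ 2) ≠ 0 := mul_ne_zero (mul_ne_zero ha0 hB0) hC0
    rw [h] at this ⊢
    exact lt_of_le_of_ne (sq_nonneg w) (Ne.symm this)
  have hd₁p : (0 : ℤ) < d₁ := by exact_mod_cast hd₁.ne_zero.bot_lt
  have hd₂p : (0 : ℤ) < d₂ := by exact_mod_cast hd₂.ne_zero.bot_lt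
  have hm₁p : 0 < m₁ ^ 2 := by positivity
  have hm₂p : 0 < m₂ ^ 2 := by positivity
  have hpar : ¬ (a % 2 = 0 ∧ z % 2 = 0) := by
    rintro ⟨h1, h2⟩
    obtain ⟨u, v, huv⟩ := hco
    have h3 : (2 : ℤ) ∣ u * a + v * z :=
      dvd_add ((Int.dvd_of_emod_eq_zero h1).mul_left _) ((Int.dvd_of_emod_eq_zero h2).mul_left _)
    rw [huv] at h3
    norm_num at h3
  have hpar2 : a % 2 = 0 → z % 2 = 1 := fun h1 => by
    rcases Int.emod_two_eq_zero_or_one z with h2 | h2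
    · exact absurd ⟨h1, h2⟩ hpar
    · exact h2
  have h3az : ¬ ((3 : ℤ) ∣ a ∧ (3 : ℤ) ∣ z) := by
    rintro ⟨h1, h2⟩
    obtain ⟨u, v, huv⟩ := hco
    have h3 : (3 : ℤ) ∣ u * a + v * z := dvd_add (h1.mul_left _) (h2.mul_left _)
    rw [huv] at h3
    norm_num at h3
  rcases hε₁ with rfl | rfl
  · -- a > 0
    have hapos : 0 < a := by rw [ha]; positivity
    rcases hε₂ with rfl | rfl
    · rcases hd₁' with rfl | rfl
      · -- class 1
        push_cast at ha hB hs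
        have e1 : m₁ ^ 2 + z ^ 2 = d₂ * m₂ ^ 2 := by linear_combination hB - ha
        have e2 : m₁ ^ 2 + 16 * z ^ 2 = d₂ * s ^ 2 := by linear_combination hs - ha
        have h3m : ¬ ((3 : ℤ) ∣ m₁ ∧ (3 : ℤ) ∣ z) := fun hh => h3az ⟨by
          rw [ha]; exact Dvd.dvd.mul_left (dvd_pow hh.1 (by norm_num)) _, hh.2⟩
        rcases hd₂' with rfl | rfl | rfl | rfl
        · push_cast at e1 e2
          rcases mul_eq_zero.1 (mul_eq_zero_of_squares (p := m₁) (q := z) (r := m₂) (s := s)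
            (by linear_combination e1) (by linear_combination e2)) with h6 | h6
          · exact hm₁ h6
          · exact hz h6
        · push_cast at e1
          exact h3m (three_dvd_of_sq_add_sq e1)
        · push_cast at e1 e2
          apply h4
          have := class_five e1 e2
          linear_combination ha + this
        · push_cast at e1
          exact h3m (three_dvd_of_sq_add_sq (c := 5 * m₂ ^ 2) (by linear_combination e1))
      · -- class 2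
        push_cast at ha hB hs
        have hz1 : z % 2 = 1 := hpar2 (by rw [ha]; omega)
        refine no_class_two (p := m₁) (z := z) (r := m₂) (s := s) (δ := d₂) ?_ hz1
          (by linear_combination hB - ha) (by linarith)
        rcases hd₂' with rfl | rfl | rfl | rfl <;> norm_num
    · exfalso
      have : 0 < a + z ^ 2 := by positivity
      rw [hB] at this
      nlinarith [mul_pos hd₂p hm₂p]
  · -- a < 0
    have haneg : a < 0 := by
      rw [ha]; nlinarith [mul_pos hd₁p hm₁p]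
    rcases hε₂ with rfl | rfl
    · exfalso
      have hBpos : 0 < a + z ^ 2 := by rw [hB]; positivity
      have hCpos : 0 < a + 16 * z ^ 2 := by linarith
      have := mul_pos hBpos hCpos
      nlinarith
    · rcases hd₁' with rfl | rfl
      · -- class -1
        push_cast at ha hB hs
        have e1 : m₁ ^ 2 - z ^ 2 = d₂ * m₂ ^ 2 := by linear_combination ha - hB
        have e2 : 16 * z ^ 2 - m₁ ^ 2 = d₂ * s ^ 2 := by linear_combination hs - ha
        have hpm : ¬ (m₁ % 2 = 0 ∧ z % 2 = 0) := fun hh => hpar ⟨by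
          obtain ⟨c, hc⟩ := Int.dvd_of_emod_eq_zero hh.1
          rw [ha, hc]
          have : -1 * (2 * c) ^ 2 = 2 * (-2 * c ^ 2) := by ring
          rw [this]; omega, hh.2⟩
        rcases hd₂' with rfl | rfl | rfl | rfl
        · exact no_class_neg_one (Or.inl rfl) hpm e1 e2
        · apply h5
          have := class_neg_three (by simpa using e1) (by simpa using e2)
          linear_combination ha - this
        · exact no_class_neg_one (Or.inr rfl) hpm e1 e2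
        · push_cast at e1 e2
          rcases mul_eq_zero.1 (mul_eq_zero_of_squares (p := s) (q := m₂) (r := z) (s := m₁)
            (by linarith) (by linarith)) with h6 | h6
          · rw [h6] at hs; apply hC0; rw [hs]; ring
          · exact hm₂ h6
      · -- class -2
        push_cast at ha hB hs
        have hz1 : z % 2 = 1 := hpar2 (by rw [ha]; omega)
        refine no_class_neg_two (p := m₁) (z := z) (r := m₂) (s := s) (δ := d₂) ?_ hz1
          (by linear_combination ha - hB) (by linarith)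
        rcases hd₂' with rfl | rfl | rfl | rfl <;> norm_num

theorem E1_rat {X y : ℚ} (h : y ^ 2 = X * (X + 1) * (X + 16)) :
    X = 0 ∨ X = -1 ∨ X = -16 ∨ X = 4 ∨ X = -4 := by
  obtain ⟨a, b, hb, hco, hX⟩ : ∃ a b : ℤ, 0 < b ∧ IsCoprime a b ∧ X = a / b := by
    refine ⟨X.num, X.den, by exact_mod_cast X.pos, ?_, by
      rw [Int.cast_natCast]; exact (Rat.num_div_den X).symm⟩
    rw [Int.isCoprime_iff_gcd_eq_one]
    exact X.reduced
  have hbq : (b : ℚ) ≠ 0 := by exact_mod_cast hb.ne'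
  have hsq : IsSquare ((b * (a * (a + b) * (a + 16 * b)) : ℤ)) := by
    rw [← Rat.isSquare_intCast_iff]
    refine ⟨y * b ^ 2, ?_⟩
    have : y * b ^ 2 * (y * b ^ 2) = y ^ 2 * b ^ 4 := by ring
    rw [this, h, hX]
    push_cast
    field_simp
  obtain ⟨c, hc⟩ := hsq
  have hcoab : IsCoprime b (a * (a + b) * (a + 16 * b)) := by
    apply IsCoprime.mul_right (IsCoprime.mul_right hco.symm _)
    · have : IsCoprime b (a + b * 16) := by
        rw [IsCoprime.add_mul_left_right_iff]; exact hco.symm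
      rwa [mul_comm b 16] at this
    · have : IsCoprime b (a + b * 1) := by
        rw [IsCoprime.add_mul_left_right_iff]; exact hco.symm
      rwa [mul_one] at this
  obtain ⟨z, hz⟩ := Int.sq_of_isCoprime (c := c) hcoab (by rw [hc]; ring)
  have hbz : b = z ^ 2 := by
    rcases hz with h1 | h1
    · exact h1
    · nlinarith [sq_nonneg z]
  have hz0 : z ≠ 0 := by
    rintro rfl
    rw [hbz] at hb; norm_num at hb
  obtain ⟨w, hw⟩ := exists_sq_of_squarefree (ε := 1) (d := 1) (m := z) (w := c)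
    (M := a * (a + b) * (a + 16 * b)) (Or.inl rfl) squarefree_one hz0 (by
      rw [← hbz] ; push_cast; rw [sq c, ← hc]; ring)
  have hcoaz : IsCoprime a z := by
    rw [hbz, sq] at hco
    exact hco.of_mul_right_left
  have hzq : (z : ℚ) ≠ 0 := by exact_mod_cast hz0
  rcases E1_int (w := w) hz0 hcoaz (by rw [← hbz, hw]; push_cast; ring) with h1 | h1 | h1 | h1 | h1
  · left; rw [hX, h1]; simp
  · right; left
    have : a = - z ^ 2 := by linarith
    rw [hX, hbz, this]; push_cast; field_simp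
  · right; right; left
    have : a = - 16 * z ^ 2 := by linarith
    rw [hX, hbz, this]; push_cast; field_simp
  · right; right; right; left
    rw [hX, hbz, h1]; push_cast; field_simp
  · right; right; right; right
    rw [hX, hbz, h1]; push_cast; field_simp

/-- points on `Y² = N (N - 9) (N - 25)` with `N` a nonzero square. -/
theorem E3_square {n Y : ℚ} (hn : n ≠ 0) (h : Y ^ 2 = n ^ 2 * (n ^ 2 - 9) * (n ^ 2 - 25)) :
    n ^ 2 = 9 ∨ n ^ 2 = 25 := by
  set k : ℚ := Y / n with hk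
  have hk2 : k ^ 2 = (n ^ 2 - 9) * (n ^ 2 - 25) := by
    rw [hk, div_pow, h]; field_simp
  set X : ℚ := (n ^ 2 - 17 + k) / 2 with hX
  have e : X ^ 2 + (17 - n ^ 2) * X + 16 = 0 := by
    rw [hX]; linear_combination (1 / 4) * hk2
  have h1 : (n * X) ^ 2 = X * (X + 1) * (X + 16) := by linear_combination -X * e
  rcases E1_rat h1 with h2 | h2 | h2 | h2 | h2 <;> rw [h2] at e
  · exfalso; norm_num at e
  · exfalso; have : n ^ 2 = 0 := by linarith
    exact hn (pow_eq_zero_iff (n := 2) (by norm_num) |>.1 this)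
  · exfalso; have : n ^ 2 = 0 := by linarith
    exact hn (pow_eq_zero_iff (n := 2) (by norm_num) |>.1 this)
  · right; linarith
  · left; linarith

/-- points on `Y² = N (N - 9) (N - 25)` with `N` five times a nonzero square. -/
theorem E3_five_square {n Y : ℚ} (hn : n ≠ 0)
    (h : Y ^ 2 = (5 * n ^ 2) * (5 * n ^ 2 - 9) * (5 * n ^ 2 - 25)) :
    5 * n ^ 2 = 5 ∨ 5 * n ^ 2 = 45 := by
  set m : ℚ := Y / (5 * n) with hm
  have hm2 : m ^ 2 = (5 * n ^ 2 - 9) * (n ^ 2 - 5) := by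
    rw [hm, div_pow, h]; field_simp; ring
  clear_value m
  by_cases hn1 : n ^ 2 = 1
  · left; rw [hn1]; norm_num
  have hn1' : n ^ 2 - 1 ≠ 0 := sub_ne_zero.2 hn1
  -- translate by the point `(5, 20)`
  set n' : ℚ := (m - 4 * n) / (n ^ 2 - 1) with hn'
  clear_value n'
  have e9 : (n' ^ 2 - 9) * (n ^ 2 - 1) ^ 2 = -4 * (n ^ 4 - 9 + 2 * n * m) := by
    rw [hn']; field_simp; linear_combination hm2
  have e25 : (n' ^ 2 - 25) * (n ^ 2 - 1) ^ 2 = -4 * (5 * n ^ 4 - 8 * n ^ 2 - 5 + 2 * n * m) := by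
    rw [hn']; field_simp; linear_combination hm2
  have hfin : n ^ 2 = 1 ∨ n ^ 2 = 9 → 5 * n ^ 2 = 5 ∨ 5 * n ^ 2 = 45 := by
    rintro (h1 | h1)
    · left; linarith
    · right; linarith
  have hfac : (n ^ 2 - 1) * (n ^ 2 - 9) = 0 → 5 * n ^ 2 = 5 ∨ 5 * n ^ 2 = 45 := by
    intro h1
    apply hfin
    rcases mul_eq_zero.1 h1 with h2 | h2
    · left; linarith
    · right; linarith
  by_cases hn0 : n' = 0
  · apply hfac
    have h1 : m = 4 * n := by
      rw [hn', div_eq_zero_iff] at hn0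
      rcases hn0 with h2 | h2
      · linarith
      · exact absurd h2 hn1'
    rw [h1] at hm2
    linear_combination (-1 / 5) * hm2
  · set k : ℚ := 4 * ((n ^ 2 + 1) * m + 2 * (3 * n ^ 2 - 7) * n) / (n ^ 2 - 1) ^ 2 with hk
    have hk2 : k ^ 2 = (n' ^ 2 - 9) * (n' ^ 2 - 25) := by
      have e : k ^ 2 * (n ^ 2 - 1) ^ 4 = ((n' ^ 2 - 9) * (n' ^ 2 - 25)) * (n ^ 2 - 1) ^ 4 := by
        have : ((n' ^ 2 - 9) * (n' ^ 2 - 25)) * (n ^ 2 - 1) ^ 4 =
          (-4 * (n ^ 4 - 9 + 2 * n * m)) * (-4 * (5 * n ^ 4 - 8 * n ^ 2 - 5 + 2 * n * m)) := by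
          rw [← e9, ← e25]; ring
        rw [this, hk]
        field_simp
        linear_combination ((n ^ 2 + 1) ^ 2 - 4 * n ^ 2) * hm2
      exact mul_right_cancel₀ (pow_ne_zero 4 hn1') e
    rcases E3_square (Y := n' * k) hn0 (by rw [mul_pow, hk2]; ring) with h1 | h1
    · rw [h1, sub_self, zero_mul] at e9
      have h2 : 2 * n * m = 9 - n ^ 4 := by linarith
      apply hfac
      have h3 : ((n ^ 2 - 1) * (n ^ 2 - 9)) ^ 2 = 0 := by
        have h4 : (2 * n * m) ^ 2 = (9 - n ^ 4) ^ 2 := by rw [h2]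
        linear_combination -h4 + 4 * n ^ 2 * hm2
      exact pow_eq_zero_iff (n := 2) (by norm_num) |>.1 h3
    · rw [h1, sub_self, zero_mul] at e25
      have h2 : 2 * n * m = -(5 * n ^ 4 - 8 * n ^ 2 - 5) := by linarith
      exfalso
      have h3 : (n ^ 2 - 1) ^ 4 = 0 := by
        have h4 : (2 * n * m) ^ 2 = (-(5 * n ^ 4 - 8 * n ^ 2 - 5)) ^ 2 := by rw [h2]
        linear_combination (-1 / 25) * h4 + (4 / 25) * n ^ 2 * hm2
      exact hn1' (pow_eq_zero_iff (n := 4) (by norm_num) |>.1 h3)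

end Fermat.Agent.X015
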