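import Mathlib.AlgebraicGeometry.EllipticCurve.Affine.Point
import Mathlib.AlgebraicGeometry.EllipticCurve.DivisionPolynomial.Degree
import Mathlib.Tactic

set_option autoImplicit false

/-! `3`- and `5`-torsion of Weierstrass curves via x-coordinates. -/

open WeierstrassCurve WeierstrassCurve.Affine Polynomial

namespace Fermat.Agent.X015

variable {K : Type*} [Field K] (W : WeierstrassCurve K)

def P2 (x : K) : K := 4 * x ^ 3 + W.b₂ * x ^ 2 + 2 * W.b₄ * x + W.b₆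
def P3 (x : K) : K := 3 * x ^ 4 + W.b₂ * x ^ 3 + 3 * W.b₄ * x ^ 2 + 3 * W.b₆ * x + W.b₈
def P4 (x : K) : K := 2 * x ^ 6 + W.b₂ * x ^ 5 + 5 * W.b₄ * x ^ 4 + 10 * W.b₆ * x ^ 3 +
  10 * W.b₈ * x ^ 2 + (W.b₂ * W.b₈ - W.b₄ * W.b₆) * x + (W.b₄ * W.b₈ - W.b₆ ^ 2)
def F2 (x : K) : K := x ^ 4 - W.b₄ * x ^ 2 - 2 * W.b₆ * x - W.b₈
def P5 (x : K) : K := P4 W x * (P2 W x) ^ 2 - (P3 W x) ^ 3

lemma eval_Psi3 (x : K) : W.Ψ₃.eval x = P3 W x := by
  simp [Ψ₃, P3]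

lemma eval_Psi5 (x : K) : (W.preΨ' 5).eval x = P5 W x := by
  have := W.preΨ'_odd 0
  norm_num at this
  rw [this]
  simp [Ψ₃, Ψ₂Sq, preΨ₄, P5, P4, P3, P2]

lemma F2_eq (x : K) : F2 W x = x * P2 W x - P3 W x := by
  unfold F2 P2 P3; ring

/-- translation invariants -/
lemma disc_eq_zero_of_P2_P3 {x : K} (h2 : P2 W x = 0) (h3 : P3 W x = 0) : W.Δ = 0 := by
  have hb := W.b_relation
  have h4 : (6 * x ^ 2 + W.b₂ * x + W.b₄) ^ 2 = 0 := by
    unfold P2 at h2; unfold P3 at h3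
    linear_combination (W.b₂ + 12 * x) * h2 - 4 * h3 + hb
  have h4' := pow_eq_zero_iff (n := 2) (by norm_num) |>.1 h4
  unfold P2 at h2; unfold P3 at h3
  rw [WeierstrassCurve.Δ]
  linear_combination (6 * W.b₂ * x + 36 * x ^ 2) * hb - (W.b₂ + 12 * x) ^ 2 * h3
    - 8 * (6 * x ^ 2 + W.b₂ * x + W.b₄) ^ 2 * h4' - 27 * (4 * x ^ 3 + W.b₂ * x ^ 2 + 2 * W.b₄ * x + W.b₆) * h2
    + 9 * (W.b₂ + 12 * x) * (6 * x ^ 2 + W.b₂ * x + W.b₄) * h2

lemma P4_ne_zero {x : K} (hΔ : W.Δ ≠ 0) (h3 : P3 W x = 0) : P4 W x ≠ 0 := by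
  intro h4
  apply hΔ
  apply disc_eq_zero_of_P2_P3 W (x := x) _ h3
  have hb := W.b_relation
  have h : (P2 W x) ^ 2 = 0 := by
    unfold P4 at h4; unfold P3 at h3; unfold P2
    linear_combination (6 * x ^ 2 + W.b₂ * x + W.b₄) * h3 - h4 + x ^ 2 * hb
  exact pow_eq_zero_iff (n := 2) (by norm_num) |>.1 h

lemma P2_ne_zero_of_P3 {x : K} (hΔ : W.Δ ≠ 0) (h3 : P3 W x = 0) : P2 W x ≠ 0 :=
  fun h2 => hΔ (disc_eq_zero_of_P2_P3 W h2 h3)

lemma P3_ne_zero_of_P5 {x : K} (hΔ : W.Δ ≠ 0) (h5 : P5 W x = 0) : P3 W x ≠ 0 := by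
  intro h3
  unfold P5 at h5
  rw [h3] at h5
  have : P4 W x * P2 W x ^ 2 = 0 := by linear_combination h5
  rcases mul_eq_zero.1 this with h | h
  · exact P4_ne_zero W hΔ h3 h
  · exact P2_ne_zero_of_P3 W hΔ h3 (pow_eq_zero_iff (n := 2) (by norm_num) |>.1 h)

lemma P2_ne_zero_of_P5 {x : K} (hΔ : W.Δ ≠ 0) (h5 : P5 W x = 0) : P2 W x ≠ 0 := by
  intro h2
  apply P3_ne_zero_of_P5 W hΔ h5
  unfold P5 at h5
  rw [h2] at h5
  exact pow_eq_zero_iff (n := 3) (by norm_num) |>.1 (by linear_combination -h5 : P3 W x ^ 3 = 0)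

lemma P4_ne_zero_of_P5 {x : K} (hΔ : W.Δ ≠ 0) (h5 : P5 W x = 0) : P4 W x ≠ 0 := by
  intro h4
  apply P3_ne_zero_of_P5 W hΔ h5
  unfold P5 at h5
  rw [h4] at h5
  exact pow_eq_zero_iff (n := 3) (by norm_num) |>.1 (by linear_combination -h5 : P3 W x ^ 3 = 0)

lemma dup_P2 {x x' : K} (h : x' * P2 W x = F2 W x) : P2 W x' * (P2 W x) ^ 3 = (P4 W x) ^ 2 := by
  have hb := W.b_relation
  have e : P2 W x' * (P2 W x) ^ 3 = 4 * (F2 W x) ^ 3 + W.b₂ * (F2 W x) ^ 2 * P2 W x +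
      2 * W.b₄ * F2 W x * P2 W x ^ 2 + W.b₆ * P2 W x ^ 3 := by
    rw [← h]; conv_lhs => rw [P2]
    ring
  rw [e]
  unfold P2 F2 P4
  linear_combination (-W.b₈ ^ 2 - 6 * W.b₈ * W.b₆ * x - 8 * W.b₈ * W.b₄ * x ^ 2 - 4 * W.b₈ * W.b₂ * x ^ 3 - 22 * W.b₈ * x ^ 4 - 7 * W.b₆ ^ 2 * x ^ 2 - 16 * W.b₆ * W.b₄ * x ^ 3 - 7 * W.b₆ * W.b₂ * x ^ 4 - 38 * W.b₆ * x ^ 5 - 8 * W.b₄ ^ 2 * x ^ 4 - 6 * W.b₄ * W.b₂ * x ^ 5 - 28 * W.b₄ * x ^ 6 - W.b₂ ^ 2 * x ^ 6 - 8 * W.b₂ * x ^ 7 - 13 * x ^ 8) * hb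

lemma dup_F2 {x x' : K} (h : x' * P2 W x = F2 W x) :
    (x * P2 W x' - F2 W x') * (P2 W x) ^ 4 = P3 W x * P5 W x := by
  have hb := W.b_relation
  have e1 := dup_P2 W h
  have e2 : F2 W x' * (P2 W x) ^ 4 = (F2 W x) ^ 4 - W.b₄ * (F2 W x) ^ 2 * P2 W x ^ 2 -
      2 * W.b₆ * F2 W x * P2 W x ^ 3 - W.b₈ * P2 W x ^ 4 := by
    rw [← h]; conv_lhs => rw [F2]
    ring
  have e3 : (x * P2 W x' - F2 W x') * (P2 W x) ^ 4 = x * P2 W x * P4 W x ^ 2 -
      ((F2 W x) ^ 4 - W.b₄ * (F2 W x) ^ 2 * P2 W x ^ 2 -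
      2 * W.b₆ * F2 W x * P2 W x ^ 3 - W.b₈ * P2 W x ^ 4) := by
    linear_combination x * P2 W x * e1 - e2
  rw [e3]
  unfold P5
  unfold P2 F2 P4 P3
  linear_combination (W.b₈ ^ 2 * W.b₆ * x + 2 * W.b₈ ^ 2 * W.b₄ * x ^ 2 + W.b₈ ^ 2 * W.b₂ * x ^ 3 + 4 * W.b₈ ^ 2 * x ^ 4 + 5 * W.b₈ * W.b₆ ^ 2 * x ^ 2 + 16 * W.b₈ * W.b₆ * W.b₄ * x ^ 3 + 8 * W.b₈ * W.b₆ * W.b₂ * x ^ 4 + 38 * W.b₈ * W.b₆ * x ^ 5 + 12 * W.b₈ * W.b₄ ^ 2 * x ^ 4 + 12 * W.b₈ * W.b₄ * W.b₂ * x ^ 5 + 60 * W.b₈ * W.b₄ * x ^ 6 + 3 * W.b₈ * W.b₂ ^ 2 * x ^ 6 + 30 * W.b₈ * W.b₂ * x ^ 7 + 72 * W.b₈ * x ^ 8 + 4 * W.b₆ ^ 3 * x ^ 3 + 15 * W.b₆ ^ 2 * W.b₄ * x ^ 4 + 7 * W.b₆ ^ 2 * W.b₂ * x ^ 5 + 39 * W.b₆ ^ 2 * x ^ 6 + 16 * W.b₆ * W.b₄ ^ 2 * x ^ 5 + 14 * W.b₆ * W.b₄ * W.b₂ * x ^ 6 + 84 * W.b₆ * W.b₄ * x ^ 7 + 3 * W.b₆ * W.b₂ ^ 2 * x ^ 7 + 36 * W.b₆ * W.b₂ * x ^ 8 + 93 * W.b₆ * x ^ 9 + 4 * W.b₄ ^ 3 * x ^ 6 + 4 * W.b₄ ^ 2 * W.b₂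 * x ^ 7 + 28 * W.b₄ ^ 2 * x ^ 8 + W.b₄ * W.b₂ ^ 2 * x ^ 8 + 16 * W.b₄ * W.b₂ * x ^ 9 + 42 * W.b₄ * x ^ 10 + W.b₂ ^ 2 * x ^ 10 + 5 * W.b₂ * x ^ 11 + 4 * x ^ 12) * hb

lemma sq_eq_P2 {x y : K} (h : W.toAffine.Equation x y) : (2 * y + W.a₁ * x + W.a₃) ^ 2 = P2 W x := by
  rw [Affine.equation_iff] at h
  unfold P2
  rw [b₂, b₄, b₆]
  linear_combination 4 * h

variable [DecidableEq K]

lemma two_smul_some {x y : K} (h : W.toAffine.Nonsingular x y) (h2 : P2 W x ≠ 0) :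
    ∃ x' y' h', (Point.some x y h + Point.some x y h : W.toAffine.Point) = Point.some x' y' h' ∧
      x' * P2 W x = F2 W x := by
  have hy : y ≠ W.toAffine.negY x y := by
    intro hy
    apply h2
    rw [← sq_eq_P2 W h.1]
    have : 2 * y + W.a₁ * x + W.a₃ = 0 := by
      rw [Affine.negY] at hy
      linear_combination hy
    rw [this]; ring
  refine ⟨_, _, _, Point.add_self_of_Y_ne hy, ?_⟩
  have hs := sq_eq_P2 W h.1
  have he := h.1
  rw [Affine.equation_iff] at he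
  rw [Affine.slope_of_Y_ne rfl hy, Affine.addX]
  have hd : y - W.toAffine.negY x y = 2 * y + W.a₁ * x + W.a₃ := by
    rw [Affine.negY]; ring
  have hd0 : 2 * y + W.a₁ * x + W.a₃ ≠ 0 := by
    intro h0; apply h2; rw [← hs, h0]; ring
  rw [hd, ← hs]
  obtain ⟨ℓ, hℓ⟩ : ∃ ℓ, ℓ = (3 * x ^ 2 + 2 * W.a₂ * x + W.a₄ - W.a₁ * y) / (2 * y + W.a₁ * x + W.a₃) :=
    ⟨_, rfl⟩
  have hℓ2 : ℓ * (2 * y + W.a₁ * x + W.a₃) = 3 * x ^ 2 + 2 * W.a₂ * x + W.a₄ - W.a₁ * y := by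
    rw [hℓ]; exact div_mul_cancel₀ _ hd0
  have hℓ3 : (3 * x ^ 2 + 2 * W.toAffine.a₂ * x + W.toAffine.a₄ - W.toAffine.a₁ * y) /
      (2 * y + W.a₁ * x + W.a₃) = ℓ := by rw [hℓ]
  rw [hℓ3]
  unfold F2
  rw [b₄, b₆, b₈]
  linear_combination (ℓ * (2 * y + W.a₁ * x + W.a₃) + (3 * x ^ 2 + 2 * W.a₂ * x + W.a₄ - W.a₁ * y)
    + W.a₁ * (2 * y + W.a₁ * x + W.a₃)) * hℓ2 + (-8 * x - 4 * W.a₂ - W.a₁ ^ 2) * he

lemma two_smul_eq_zero {x y : K} (h : W.toAffine.Nonsingular x y) (h2 : P2 W x = 0) :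
    (Point.some x y h + Point.some x y h : W.toAffine.Point) = 0 := by
  apply Point.add_self_of_Y_eq
  rw [← sq_eq_P2 W h.1] at h2
  have := pow_eq_zero_iff (n := 2) (by norm_num) |>.1 h2
  rw [Affine.negY]
  linear_combination this

lemma X_eq_of_some_eq {x y x' y' : K} {h : W.toAffine.Nonsingular x y}
    {h' : W.toAffine.Nonsingular x' y'} (e : (Point.some x y h : W.toAffine.Point) = Point.some x' y' h') :
    x = x' := by
  rw [Point.some.injEq] at e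
  exact e.1

lemma X_eq_of_some_eq_neg {x y x' y' : K} {h : W.toAffine.Nonsingular x y}
    {h' : W.toAffine.Nonsingular x' y'} (e : (Point.some x y h : W.toAffine.Point) = -Point.some x' y' h') :
    x = x' := by
  rw [Point.neg_some] at e
  exact X_eq_of_some_eq W e

/-- `3 P = 0` implies `ψ₃(x) = 0`. -/
lemma P3_eq_zero_of_three_smul {x y : K} (h : W.toAffine.Nonsingular x y)
    (h3 : 3 • (Point.some x y h : W.toAffine.Point) = 0) : P3 W x = 0 := by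
  by_cases h2 : P2 W x = 0
  · exfalso
    have := two_smul_eq_zero W h h2
    rw [← two_nsmul] at this
    have h1 : (Point.some x y h : W.toAffine.Point) = 0 := by
      rw [succ_nsmul, this, zero_add] at h3; exact h3
    exact Point.some_ne_zero h h1
  · obtain ⟨x', y', h', e, e2⟩ := two_smul_some W h h2
    have h4 : (Point.some x' y' h' : W.toAffine.Point) = -Point.some x y h := by
      rw [← e, ← two_nsmul]
      rw [succ_nsmul] at h3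
      exact eq_neg_of_add_eq_zero_left h3
    have h5 := X_eq_of_some_eq_neg W h4
    rw [h5, F2_eq] at e2
    linear_combination e2

/-- `ψ₃(x) = 0` implies `3 P = 0`. -/
lemma three_smul_eq_zero {x y : K} (hΔ : W.Δ ≠ 0) (h : W.toAffine.Nonsingular x y) (h3 : P3 W x = 0) :
    3 • (Point.some x y h : W.toAffine.Point) = 0 := by
  obtain ⟨x', y', h', e, e2⟩ := two_smul_some W h (P2_ne_zero_of_P3 W hΔ h3)
  rw [F2_eq, h3, sub_zero] at e2
  have hx := mul_right_cancel₀ (P2_ne_zero_of_P3 W hΔ h3) e2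
  rcases (Point.X_eq_iff (h₁ := h') (h₂ := h)).1 hx with h4 | h4
  · exfalso
    rw [← e] at h4
    have : (Point.some x y h : W.toAffine.Point) = 0 := by simp at h4
    exact Point.some_ne_zero h this
  · rw [succ_nsmul, two_nsmul, e, h4, neg_add_cancel]

/-- data attached to a `5`-torsion point. -/
lemma five_torsion_data {x y : K} (h : W.toAffine.Nonsingular x y)
    (h5 : 5 • (Point.some x y h : W.toAffine.Point) = 0) :
    ∃ x' y' h', 2 • (Point.some x y h : W.toAffine.Point) = Point.some x' y' h' ∧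
      x' * P2 W x = F2 W x ∧ x * P2 W x' = F2 W x' ∧ x ≠ x' ∧ P5 W x = 0 := by
  have hP0 : (Point.some x y h : W.toAffine.Point) ≠ 0 := Point.some_ne_zero h
  have h2 : P2 W x ≠ 0 := by
    intro h2
    have := two_smul_eq_zero W h h2
    rw [← two_nsmul] at this
    apply hP0
    have e : 5 • (Point.some x y h : W.toAffine.Point) = 2 • (2 • (Point.some x y h : W.toAffine.Point)) +
      Point.some x y h := by
      rw [smul_smul]; exact succ_nsmul _ 4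
    rw [h5, this, smul_zero, zero_add] at e
    exact e.symm
  obtain ⟨x', y', h', e, e2⟩ := two_smul_some W h h2
  rw [← two_nsmul] at e
  have h4 : 2 • (Point.some x' y' h' : W.toAffine.Point) = -Point.some x y h := by
    rw [← e, smul_smul]
    rw [succ_nsmul] at h5
    exact eq_neg_of_add_eq_zero_left h5
  have h2' : P2 W x' ≠ 0 := by
    intro h2'
    have := two_smul_eq_zero W h' h2'
    rw [← two_nsmul, h4] at this
    exact hP0 (neg_eq_zero.1 this)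
  obtain ⟨x'', y'', h'', e', e2'⟩ := two_smul_some W h' h2'
  rw [← two_nsmul, h4] at e'
  have hx'' : x'' = x := X_eq_of_some_eq_neg W e'.symm
  rw [hx''] at e2'
  have hne : x ≠ x' := by
    intro hxx
    rcases (Point.X_eq_iff (h₁ := h) (h₂ := h')).1 hxx with h6 | h6
    · rw [← e] at h6
      apply hP0
      have : (Point.some x y h : W.toAffine.Point) + 0 = Point.some x y h + Point.some x y h := by
        rw [add_zero, ← two_nsmul]; exact h6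
      exact (add_left_cancel this).symm
    · rw [← e] at h6
      apply hP0
      have h7 : 3 • (Point.some x y h : W.toAffine.Point) = 0 := by
        rw [succ_nsmul]
        nth_rw 2 [h6]
        exact add_neg_cancel _
      have h8 : 2 • (3 • (Point.some x y h : W.toAffine.Point)) =
          5 • (Point.some x y h : W.toAffine.Point) + Point.some x y h := by
        rw [smul_smul]; exact succ_nsmul _ 5
      rw [h7, h5, smul_zero, zero_add] at h8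
      exact h8.symm
  refine ⟨x', y', h', e, e2, e2', hne, ?_⟩
  have h9 := dup_F2 W e2
  rw [e2', sub_self, zero_mul] at h9
  rcases mul_eq_zero.1 h9.symm with h10 | h10
  · exfalso
    rw [F2_eq, h10, sub_zero] at e2
    exact hne (mul_right_cancel₀ h2 e2).symm
  · exact h10

/-- `ψ₅(x) = 0` implies `5 P = 0`. -/
lemma five_smul_eq_zero {x y : K} (hΔ : W.Δ ≠ 0) (h : W.toAffine.Nonsingular x y) (h5 : P5 W x = 0) :
    5 • (Point.some x y h : W.toAffine.Point) = 0 := by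
  have h2 := P2_ne_zero_of_P5 W hΔ h5
  have h3 := P3_ne_zero_of_P5 W hΔ h5
  have h4 := P4_ne_zero_of_P5 W hΔ h5
  obtain ⟨x', y', h', e, e2⟩ := two_smul_some W h h2
  have h2' : P2 W x' ≠ 0 := by
    intro h2'
    have := dup_P2 W e2
    rw [h2', zero_mul] at this
    exact h4 (pow_eq_zero_iff (n := 2) (by norm_num) |>.1 this.symm)
  obtain ⟨x'', y'', h'', e', e2'⟩ := two_smul_some W h' h2'
  have h9 := dup_F2 W e2
  rw [h5, mul_zero] at h9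
  have h10 : x * P2 W x' = F2 W x' := by
    rcases mul_eq_zero.1 h9 with h | h
    · exact sub_eq_zero.1 h
    · exact absurd h (pow_ne_zero 4 h2)
  have hx : x'' = x := mul_right_cancel₀ h2' (e2'.trans h10.symm)
  have e4 : 4 • (Point.some x y h : W.toAffine.Point) = Point.some x'' y'' h'' := by
    rw [← e', ← two_nsmul, ← e, ← two_nsmul, smul_smul]; rfl
  rcases (Point.X_eq_iff (h₁ := h'') (h₂ := h)).1 hx with h6 | h6
  · exfalso
    apply h3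
    apply P3_eq_zero_of_three_smul W h
    rw [h6, succ_nsmul] at e4
    have : 3 • (Point.some x y h : W.toAffine.Point) + Point.some x y h = 0 + Point.some x y h := by
      rw [zero_add]; exact e4
    exact add_right_cancel this
  · rw [succ_nsmul, e4, h6, neg_add_cancel]

end Fermat.Agent.X015
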